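import Mathlib

/-!
# Row LT, tower T7, node T7.14 `RigidC`, leaf ARCH-U: the Bessel function `K₀` (helper724)

OFF-MAIN, Mathlib only.  `K₀(t) = ∫₀^∞ exp(-t cosh u) du` (same integral as `Rigid.besselK0` of
helper62, `LT/T7/H62/RigidStrip.lean`).

* `besI724 j t = ∫₀^∞ cosh^j u · exp(-t cosh u) du`, integrable for `t > 0`;
* `hasDerivAt_besI724` : `d/dt I_j = - I_{j+1}` (differentiation under the integral sign);
* `besI_ibp724` : `I₁ = t (I₂ - I₀)` (integration by parts), i.e. the modified Bessel equation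
  `t² K₀'' + t K₀' = t² K₀`;
* `besK_pos724` : `K₀ > 0`; `besK_le724` : `K₀(t) ≤ e^{1-t} K₀(1)` for `t ≥ 1`;
* `besK_decSol724` : for `k > 0`, `h(s) = K₀(k eˢ)` is a solution of `h'' = k² e^{2s} h` which
  tends to `0` at `+∞` (the shape of `T2.H973.IsDecSol k h`, unfolded).
-/

set_option autoImplicit false

open MeasureTheory Set Filter Topology

noncomputable section

namespace Fermat.Agent.LT.T7.H724

/-- `I_j(t) = ∫₀^∞ cosh^j u · exp(-t cosh u) du`. -/
def besI724 (j : ℕ) (t : ℝ) : ℝ :=
  ∫ u in Ioi (0 : ℝ), Real.cosh u ^ j * Real.exp (-t * Real.cosh u)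

/-- `K₀(t) = ∫₀^∞ exp(-t cosh u) du`. -/
def besK724 (t : ℝ) : ℝ := ∫ u in Ioi (0 : ℝ), Real.exp (-t * Real.cosh u)

theorem besK_eq_besI724 (t : ℝ) : besK724 t = besI724 0 t := by
  unfold besK724 besI724
  simp

/-! ## Elementary bounds -/

theorem one_add_sq_le_cosh724 (u : ℝ) : 1 + u ^ 2 / 2 ≤ Real.cosh u := by
  have h1 : Real.cosh u = 1 + 2 * Real.sinh (u / 2) ^ 2 := by
    have h := Real.cosh_two_mul (u / 2)
    have h2 := Real.cosh_sq (u / 2)
    rw [show 2 * (u / 2) = u by ring] at h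
    rw [h, h2]
    ring
  have h2 : (u / 2) ^ 2 ≤ Real.sinh (u / 2) ^ 2 := by
    rcases le_total 0 u with hu | hu
    · have : u / 2 ≤ Real.sinh (u / 2) := Real.self_le_sinh_iff.mpr (by linarith)
      exact pow_le_pow_left₀ (by linarith) this 2
    · have h3 : -(u / 2) ≤ Real.sinh (-(u / 2)) := Real.self_le_sinh_iff.mpr (by linarith)
      rw [Real.sinh_neg] at h3
      have h4 : (-(u / 2)) ^ 2 ≤ (-Real.sinh (u / 2)) ^ 2 :=
        pow_le_pow_left₀ (by linarith) h3 2
      simpa using h4
  rw [h1]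
  nlinarith

/-- `x^j e^{-b x} ≤ j! / b^j` for `x ≥ 0`, `b > 0`. -/
theorem pow_mul_exp_neg_le724 (j : ℕ) {b : ℝ} (hb : 0 < b) {x : ℝ} (hx : 0 ≤ x) :
    x ^ j * Real.exp (-(b * x)) ≤ (j.factorial : ℝ) / b ^ j := by
  have h := Real.pow_div_factorial_le_exp (b * x) (mul_nonneg hb.le hx) j
  have hf : (0 : ℝ) < (j.factorial : ℝ) := by exact_mod_cast j.factorial_pos
  have hbj : 0 < b ^ j := pow_pos hb j
  rw [Real.exp_neg, le_div_iff₀ hbj]
  rw [div_le_iff₀ hf] at h
  have he : 0 < Real.exp (b * x) := Real.exp_pos _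
  rw [mul_pow] at h
  calc x ^ j * (Real.exp (b * x))⁻¹ * b ^ j = (b ^ j * x ^ j) * (Real.exp (b * x))⁻¹ := by ring
    _ ≤ (Real.exp (b * x) * (j.factorial : ℝ)) * (Real.exp (b * x))⁻¹ := by
        gcongr
    _ = (j.factorial : ℝ) := by
        field_simp

/-- The Gaussian bound of the integrand. -/
theorem integrand_le724 (j : ℕ) {t : ℝ} (ht : 0 < t) (u : ℝ) :
    Real.cosh u ^ j * Real.exp (-t * Real.cosh u)
      ≤ (j.factorial : ℝ) / (t / 2) ^ j * Real.exp (-(t / 4) * u ^ 2) := by
  have hc : 0 ≤ Real.cosh u := (Real.cosh_pos u).le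
  have h1 := pow_mul_exp_neg_le724 j (half_pos ht) hc
  have h2 : Real.exp (-(t / 2 * Real.cosh u)) ≤ Real.exp (-(t / 4) * u ^ 2) := by
    apply Real.exp_le_exp.mpr
    have := one_add_sq_le_cosh724 u
    nlinarith
  have e : Real.cosh u ^ j * Real.exp (-t * Real.cosh u)
      = (Real.cosh u ^ j * Real.exp (-(t / 2 * Real.cosh u)))
        * Real.exp (-(t / 2 * Real.cosh u)) := by
    rw [mul_assoc, ← Real.exp_add]
    congr 2
    ring
  rw [e]
  exact mul_le_mul h1 h2 (Real.exp_pos _).le (by positivity)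

theorem integrand_nonneg724 (j : ℕ) (t u : ℝ) :
    0 ≤ Real.cosh u ^ j * Real.exp (-t * Real.cosh u) :=
  mul_nonneg (pow_nonneg (Real.cosh_pos u).le j) (Real.exp_pos _).le

theorem continuous_integrand724 (j : ℕ) (t : ℝ) :
    Continuous fun u : ℝ => Real.cosh u ^ j * Real.exp (-t * Real.cosh u) := by
  fun_prop

/-- The integrand is integrable on `ℝ` for `t > 0`. -/
theorem integrable_integrand724 (j : ℕ) {t : ℝ} (ht : 0 < t) :
    Integrable fun u : ℝ => Real.cosh u ^ j * Real.exp (-t * Real.cosh u) := by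
  have hg : Integrable fun u : ℝ =>
      (j.factorial : ℝ) / (t / 2) ^ j * Real.exp (-(t / 4) * u ^ 2) :=
    (integrable_exp_neg_mul_sq (by positivity : 0 < t / 4)).const_mul _
  refine hg.mono' (continuous_integrand724 j t).aestronglyMeasurable
    (Eventually.of_forall fun u => ?_)
  rw [Real.norm_eq_abs, abs_of_nonneg (integrand_nonneg724 j t u)]
  exact integrand_le724 j ht u

theorem integrableOn_integrand724 (j : ℕ) {t : ℝ} (ht : 0 < t) :
    IntegrableOn (fun u : ℝ => Real.cosh u ^ j * Real.exp (-t * Real.cosh u)) (Ioi 0) :=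
  (integrable_integrand724 j ht).integrableOn

/-! ## Differentiation under the integral sign -/

theorem hasDerivAt_besI724 (j : ℕ) {t : ℝ} (ht : 0 < t) :
    HasDerivAt (besI724 j) (-besI724 (j + 1) t) t := by
  have hs : Ioi (t / 2) ∈ 𝓝 t := Ioi_mem_nhds (by linarith)
  have key := hasDerivAt_integral_of_dominated_loc_of_deriv_le
    (μ := volume.restrict (Ioi (0 : ℝ))) (s := Ioi (t / 2)) (x₀ := t)
    (F := fun (x : ℝ) (u : ℝ) => Real.cosh u ^ j * Real.exp (-x * Real.cosh u))
    (F' := fun (x : ℝ) (u : ℝ) => -(Real.cosh u ^ (j + 1) * Real.exp (-x * Real.cosh u)))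
    (bound := fun u : ℝ => Real.cosh u ^ (j + 1) * Real.exp (-(t / 2) * Real.cosh u))
    hs
    (Eventually.of_forall fun x => (continuous_integrand724 j x).aestronglyMeasurable)
    (integrableOn_integrand724 j ht)
    ((continuous_integrand724 (j + 1) t).neg.aestronglyMeasurable)
    (Eventually.of_forall fun u x hx => by
      rw [norm_neg, Real.norm_eq_abs, abs_of_nonneg (integrand_nonneg724 (j + 1) x u)]
      have hx' : t / 2 < x := hx
      have hc := Real.cosh_pos u
      refine mul_le_mul_of_nonneg_left (Real.exp_le_exp.mpr ?_) (pow_nonneg hc.le _)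
      nlinarith)
    (integrableOn_integrand724 (j + 1) (half_pos ht))
    (Eventually.of_forall fun u x _ => by
      have h1 : HasDerivAt (fun x : ℝ => -x * Real.cosh u) (-Real.cosh u) x := by
        simpa using (hasDerivAt_id x).neg.mul_const (Real.cosh u)
      have h2 : HasDerivAt (fun y : ℝ => Real.cosh u ^ j * Real.exp (-y * Real.cosh u))
          (Real.cosh u ^ j * (Real.exp (-x * Real.cosh u) * -Real.cosh u)) x :=
        (h1.exp).const_mul (Real.cosh u ^ j)
      exact h2.congr_deriv (by rw [pow_succ]; ring))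
  have h := key.2
  have e : (∫ u in Ioi (0 : ℝ), -(Real.cosh u ^ (j + 1) * Real.exp (-t * Real.cosh u)))
      = -besI724 (j + 1) t := by
    rw [integral_neg]
    rfl
  rw [e] at h
  exact h

/-! ## Integration by parts: the modified Bessel equation -/

theorem tendsto_sinh_mul_exp724 {t : ℝ} (ht : 0 < t) :
    Tendsto (fun u : ℝ => Real.sinh u * Real.exp (-t * Real.cosh u)) atTop (𝓝 0) := by
  have hb : Tendsto (fun u : ℝ => (1 : ℝ) / (t / 2) ^ 1 * Real.exp (-(t / 4) * u ^ 2))
      atTop (𝓝 0) := by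
    have h1 : Tendsto (fun u : ℝ => (t / 4) * u ^ 2) atTop atTop :=
      (tendsto_pow_atTop (by norm_num : (2 : ℕ) ≠ 0)).const_mul_atTop (by positivity)
    have h2 := Real.tendsto_exp_neg_atTop_nhds_zero.comp h1
    have h3 := h2.const_mul ((1 : ℝ) / (t / 2) ^ 1)
    rw [mul_zero] at h3
    refine h3.congr fun u => ?_
    simp only [Function.comp_apply, neg_mul]
  refine squeeze_zero' ?_ ?_ hb
  · filter_upwards [Ioi_mem_atTop (0 : ℝ)] with u hu
    exact mul_nonneg (Real.sinh_nonneg_iff.mpr (le_of_lt hu)) (Real.exp_pos _).le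
  · filter_upwards with u
    have h1 := integrand_le724 1 ht u
    simp only [Nat.factorial_one, Nat.cast_one] at h1
    have h2 : Real.sinh u ≤ Real.cosh u := le_of_lt (Real.sinh_lt_cosh u)
    calc Real.sinh u * Real.exp (-t * Real.cosh u)
        ≤ Real.cosh u ^ 1 * Real.exp (-t * Real.cosh u) := by
          rw [pow_one]
          exact mul_le_mul_of_nonneg_right h2 (Real.exp_pos _).le
      _ ≤ _ := h1

theorem besI_ibp724 {t : ℝ} (ht : 0 < t) :
    besI724 1 t = t * (besI724 2 t - besI724 0 t) := by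
  -- `G(u) = sinh u · exp(-t cosh u)`, `G' = cosh·E - t (cosh² - 1) E`
  have hderiv : ∀ u ∈ Ici (0 : ℝ),
      HasDerivAt (fun u : ℝ => Real.sinh u * Real.exp (-t * Real.cosh u))
        (Real.cosh u ^ 1 * Real.exp (-t * Real.cosh u)
          - t * (Real.cosh u ^ 2 * Real.exp (-t * Real.cosh u)
            - Real.cosh u ^ 0 * Real.exp (-t * Real.cosh u))) u := by
    intro u _
    have h1 : HasDerivAt (fun u : ℝ => -t * Real.cosh u) (-t * Real.sinh u) u :=
      (Real.hasDerivAt_cosh u).const_mul (-t)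
    have h2 : HasDerivAt (fun u : ℝ => Real.sinh u * Real.exp (-t * Real.cosh u))
        (Real.cosh u * Real.exp (-t * Real.cosh u)
          + Real.sinh u * (Real.exp (-t * Real.cosh u) * (-t * Real.sinh u))) u :=
      (Real.hasDerivAt_sinh u).mul h1.exp
    refine h2.congr_deriv ?_
    have := Real.cosh_sq u
    rw [pow_one, pow_zero, this]
    ring
  have i20 : IntegrableOn (fun u : ℝ => Real.cosh u ^ 2 * Real.exp (-t * Real.cosh u)
        - Real.cosh u ^ 0 * Real.exp (-t * Real.cosh u)) (Ioi 0) :=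
    (integrableOn_integrand724 2 ht).sub (integrableOn_integrand724 0 ht)
  have it20 : IntegrableOn (fun u : ℝ => t * (Real.cosh u ^ 2 * Real.exp (-t * Real.cosh u)
        - Real.cosh u ^ 0 * Real.exp (-t * Real.cosh u))) (Ioi 0) :=
    i20.const_mul t
  have hint : IntegrableOn (fun u : ℝ => Real.cosh u ^ 1 * Real.exp (-t * Real.cosh u)
      - t * (Real.cosh u ^ 2 * Real.exp (-t * Real.cosh u)
        - Real.cosh u ^ 0 * Real.exp (-t * Real.cosh u))) (Ioi 0) :=
    (integrableOn_integrand724 1 ht).sub it20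
  have h := integral_Ioi_of_hasDerivAt_of_tendsto' hderiv hint (tendsto_sinh_mul_exp724 ht)
  rw [Real.sinh_zero, zero_mul, sub_zero] at h
  have e : (∫ u in Ioi (0 : ℝ), (Real.cosh u ^ 1 * Real.exp (-t * Real.cosh u)
      - t * (Real.cosh u ^ 2 * Real.exp (-t * Real.cosh u)
        - Real.cosh u ^ 0 * Real.exp (-t * Real.cosh u))))
      = besI724 1 t - t * (besI724 2 t - besI724 0 t) := by
    rw [integral_sub (integrableOn_integrand724 1 ht) it20, integral_const_mul,
      integral_sub (integrableOn_integrand724 2 ht) (integrableOn_integrand724 0 ht)]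
    rfl
  rw [e] at h
  linarith

/-! ## Positivity and decay -/

theorem besI_nonneg724 (j : ℕ) (t : ℝ) : 0 ≤ besI724 j t :=
  setIntegral_nonneg measurableSet_Ioi fun u _ => integrand_nonneg724 j t u

theorem besK_pos724 {t : ℝ} (ht : 0 < t) : 0 < besK724 t := by
  rw [besK_eq_besI724]
  unfold besI724
  rw [setIntegral_pos_iff_support_of_nonneg_ae
    (Eventually.of_forall fun u => integrand_nonneg724 0 t u) (integrableOn_integrand724 0 ht)]
  have hsupp : Function.support (fun u : ℝ => Real.cosh u ^ 0 * Real.exp (-t * Real.cosh u))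
      = univ := by
    ext u
    simp only [Function.mem_support, pow_zero, one_mul, mem_univ, iff_true]
    exact (Real.exp_pos _).ne'
  rw [hsupp, univ_inter]
  simp

theorem besK_le724 {t : ℝ} (ht : 1 ≤ t) : besK724 t ≤ Real.exp (1 - t) * besK724 1 := by
  rw [besK_eq_besI724, besK_eq_besI724]
  unfold besI724
  rw [← integral_const_mul]
  refine setIntegral_mono_on (integrableOn_integrand724 0 (by linarith))
    ((integrableOn_integrand724 0 one_pos).const_mul _) measurableSet_Ioi fun u _ => ?_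
  simp only [pow_zero, one_mul]
  rw [← Real.exp_add]
  apply Real.exp_le_exp.mpr
  have := Real.one_le_cosh u
  nlinarith

theorem tendsto_besK724 : Tendsto besK724 atTop (𝓝 0) := by
  have hb : Tendsto (fun t : ℝ => Real.exp (1 - t) * besK724 1) atTop (𝓝 0) := by
    have h1 : Tendsto (fun t : ℝ => t - 1) atTop atTop :=
      tendsto_atTop_add_const_right atTop (-1) tendsto_id
    have h2 := (Real.tendsto_exp_neg_atTop_nhds_zero.comp h1).mul_const (besK724 1)
    rw [zero_mul] at h2
    refine h2.congr fun t => ?_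
    simp only [Function.comp_apply, neg_sub]
  refine squeeze_zero' ?_ ?_ hb
  · filter_upwards [Ioi_mem_atTop (0 : ℝ)] with t ht
    exact (besK_pos724 ht).le
  · filter_upwards [Ici_mem_atTop (1 : ℝ)] with t ht
    exact besK_le724 ht

/-! ## The equation in the variable `s = log t` -/

/-- For `k > 0`, `h(s) = K₀(k eˢ)` is a solution of `h'' = k² e^{2s} h` which tends to `0` at
`+∞` (the shape of `T2.H973.IsDecSol k h`). -/
theorem besK_decSol724 {k : ℝ} (hk : 0 < k) :
    (∃ h' : ℝ → ℝ, (∀ s : ℝ, HasDerivAt (fun s : ℝ => besK724 (k * Real.exp s)) (h' s) s) ∧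
        ∀ s : ℝ, HasDerivAt h'
          (k ^ 2 * Real.exp (2 * s) * besK724 (k * Real.exp s)) s) ∧
      Tendsto (fun s : ℝ => besK724 (k * Real.exp s)) atTop (𝓝 0) := by
  have hpos : ∀ s : ℝ, 0 < k * Real.exp s := fun s => mul_pos hk (Real.exp_pos s)
  have hinner : ∀ s : ℝ, HasDerivAt (fun s : ℝ => k * Real.exp s) (k * Real.exp s) s :=
    fun s => (Real.hasDerivAt_exp s).const_mul k
  have hK : besK724 = besI724 0 := funext besK_eq_besI724
  refine ⟨⟨fun s => -besI724 1 (k * Real.exp s) * (k * Real.exp s), ?_, ?_⟩, ?_⟩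
  · intro s
    rw [hK]
    have hd0 : HasDerivAt (besI724 0) (-besI724 1 (k * Real.exp s)) (k * Real.exp s) :=
      hasDerivAt_besI724 0 (hpos s)
    exact HasDerivAt.comp (h₂ := besI724 0) s hd0 (hinner s)
  · intro s
    have hd1 : HasDerivAt (besI724 1) (-besI724 2 (k * Real.exp s)) (k * Real.exp s) :=
      hasDerivAt_besI724 1 (hpos s)
    have h1 : HasDerivAt (fun s : ℝ => besI724 1 (k * Real.exp s))
        (-besI724 2 (k * Real.exp s) * (k * Real.exp s)) s :=
      HasDerivAt.comp (h₂ := besI724 1) s hd1 (hinner s)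
    have h2 : HasDerivAt (fun s : ℝ => -besI724 1 (k * Real.exp s) * (k * Real.exp s))
        (-(-besI724 2 (k * Real.exp s) * (k * Real.exp s)) * (k * Real.exp s)
          + -besI724 1 (k * Real.exp s) * (k * Real.exp s)) s :=
      (h1.neg).mul (hinner s)
    refine h2.congr_deriv ?_
    have hibp := besI_ibp724 (hpos s)
    have he : Real.exp (2 * s) = Real.exp s ^ 2 := by
      rw [← Real.exp_nat_mul]
      norm_num
    rw [hK, he, hibp]
    ring
  · have h1 : Tendsto (fun s : ℝ => k * Real.exp s) atTop atTop :=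
      Real.tendsto_exp_atTop.const_mul_atTop hk
    exact tendsto_besK724.comp h1

end Fermat.Agent.LT.T7.H724

end
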