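import Mathlib
import Fermat.Agent.LT.T2.H973.ArchTop
import Fermat.Agent.LT.T2.H309.SphereCoord
import Fermat.Agent.LT.T2.H944.BetaForm
import Fermat.Agent.LT.T2.H59.Subst
import Fermat.Agent.LT.T2.H655.GenLapl
import Fermat.Agent.LT.T2.H708.GenSecond
import Fermat.Agent.LT.T2.H864.OdeUniq
import Fermat.Agent.LT.T7.H724.BesselK0

/-!
# Row LT, tower T7, leaf T7.14.6b.3 `ARCH-U`: the EXPLICIT local Whittaker function on the torus
(helper724)

OFF-MAIN.  Local part (functions on `GL₂(ℂ)`, vocabulary of `LT/T2/H973/ArchSpec.lean`,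
helper973).  A local Whittaker function `f` of parameter `0` for the character
`x ↦ exp(i Re(c̄ x))`, `c ≠ 0`, is on the torus

  `f(t(y)) = |y| K₀(|c| |y|) / K₀(|c|) · f(1)`,

where `K₀(t) = ∫₀^∞ exp(-t cosh u) du` (`besK724`).  For `c = 0` it vanishes on the torus.

* `locWhit_decSol724`   : `s ↦ e^{-s} f(t(eˢ))` is a (complex) decaying solution of
                          `h'' = |c|² e^{2s} h`
* `locWhit_torus724`    : `f(t(y)) = |y| · radOf f (log |y|)`
* `isDecSol_besK724`    : `IsDecSol k (s ↦ K₀(k eˢ))` for `k > 0`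
* `decSol_prop724`      : a decaying solution is `h(s) = h(0) K₀(k eˢ) / K₀(k)`
* `locWhit_explicit724` : the explicit formula
* `decSol_zero724`, `locWhit_zero724` : the degenerate case `c = 0`

Uses the closed leaves R1, R2, R3, L4a, L4b, L5 of T2.10.08 (helper309, helper944, helper59,
helper655, helper708, helper864).  Standard axioms only.
-/

set_option autoImplicit false

open Filter Topology

noncomputable section

namespace Fermat.Agent.LT.T7.H724

open Fermat.Agent.LT.T2 Fermat.Agent.LT.T2.H973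

/-- Every local Whittaker function of parameter `0` for `exp(i Re(c̄ x))` gives a complex decaying
solution of `h'' = |c|² e^{2s} h` (real and imaginary parts). -/
theorem locWhit_decSol724 (c : ℂ) (χ : AddChar ℂ Circle)
    (hc : ∀ x : ℂ, ((χ x : Circle) : ℂ) = chiOf c x) (f : GL (Fin 2) ℂ → ℂ)
    (hf : IsLocWhit χ f) :
    IsDecSol ‖c‖ (fun s => (radOf f s).re) ∧ IsDecSol ‖c‖ (fun s => (radOf f s).im) := by
  have hβ : IsBetaSol ‖c‖ (fun s => f (tE s)) :=
    betaFormC944 H309.sphereCoordC309 c χ f hc hf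
  have hrad : IsRadSol ‖c‖ (radOf f) := H59.substC59 ‖c‖ _ (norm_nonneg c) hβ
  have hgen := H655.genLaplC655 ‖c‖ (radOf f) hrad
  have hcontφ : Continuous (fun s : ℝ =>
      (((‖c‖ ^ 2 * Real.exp (2 * s) : ℝ) : ℂ)) * radOf f s) := by
    refine Continuous.mul ?_ hrad.1
    exact Complex.continuous_ofReal.comp
      (continuous_const.mul (Real.continuous_exp.comp (continuous_const.mul continuous_id)))
  obtain ⟨H', hH, hH'⟩ := H708.genSecondC708 (radOf f) _ hrad.1 hcontφ hgen
  -- decay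
  obtain ⟨C, hC⟩ := hf.bdd
  have hdec : Tendsto (radOf f) atTop (𝓝 0) := by
    rw [tendsto_zero_iff_norm_tendsto_zero]
    have hb : ∀ s : ℝ, ‖radOf f s‖ ≤ Real.exp (-s) * C := by
      intro s
      unfold radOf
      rw [norm_mul, Complex.norm_real, Real.norm_eq_abs, abs_of_pos (Real.exp_pos _)]
      exact mul_le_mul_of_nonneg_left (hC _) (Real.exp_pos _).le
    have hlim : Tendsto (fun s : ℝ => Real.exp (-s) * C) atTop (𝓝 0) := by
      have := (Real.tendsto_exp_neg_atTop_nhds_zero).mul_const C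
      simpa using this
    exact squeeze_zero (fun s => norm_nonneg _) hb hlim
  constructor
  · refine ⟨⟨fun s => (H' s).re, fun s => ?_, fun s => ?_⟩, ?_⟩
    · exact (Complex.reCLM.hasFDerivAt.comp_hasDerivAt s (hH s))
    · have h3 := (Complex.reCLM.hasFDerivAt.comp_hasDerivAt s (hH' s))
      have e : Complex.reCLM ((((‖c‖ ^ 2 * Real.exp (2 * s) : ℝ) : ℂ)) * radOf f s)
          = ‖c‖ ^ 2 * Real.exp (2 * s) * (radOf f s).re := by
        rw [Complex.reCLM_apply, Complex.re_ofReal_mul]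
      rw [e] at h3
      exact h3
    · have h3 : Tendsto (Complex.re ∘ radOf f) atTop (𝓝 (Complex.re 0)) :=
        (Complex.continuous_re.tendsto 0).comp hdec
      rw [Complex.zero_re] at h3
      exact h3
  · refine ⟨⟨fun s => (H' s).im, fun s => ?_, fun s => ?_⟩, ?_⟩
    · exact (Complex.imCLM.hasFDerivAt.comp_hasDerivAt s (hH s))
    · have h3 := (Complex.imCLM.hasFDerivAt.comp_hasDerivAt s (hH' s))
      have e : Complex.imCLM ((((‖c‖ ^ 2 * Real.exp (2 * s) : ℝ) : ℂ)) * radOf f s)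
          = ‖c‖ ^ 2 * Real.exp (2 * s) * (radOf f s).im := by
        rw [Complex.imCLM_apply, Complex.im_ofReal_mul]
      rw [e] at h3
      exact h3
    · have h3 : Tendsto (Complex.im ∘ radOf f) atTop (𝓝 (Complex.im 0)) :=
        (Complex.continuous_im.tendsto 0).comp hdec
      rw [Complex.zero_im] at h3
      exact h3

/-- The value on the torus: `f(t(y)) = |y| · radOf f (log |y|)` (right invariance under `U(2)`
only). -/
theorem locWhit_torus724 {f : GL (Fin 2) ℂ → ℂ}
    (hu : ∀ u h : GL (Fin 2) ℂ,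
      (u : Matrix (Fin 2) (Fin 2) ℂ) * (u : Matrix (Fin 2) (Fin 2) ℂ).conjTranspose = 1 →
        f (h * u) = f h) (y : ℂˣ) :
    f (tC y) = ((‖(y : ℂ)‖ : ℝ) : ℂ) * radOf f (Real.log ‖(y : ℂ)‖) := by
  have hn : 0 < ‖(y : ℂ)‖ := norm_pos_iff.mpr y.ne_zero
  rw [torus_abs hu y]
  unfold radOf
  rw [← mul_assoc, ← Complex.ofReal_mul, Real.exp_neg, Real.exp_log hn,
    mul_inv_cancel₀ hn.ne', Complex.ofReal_one, one_mul]

/-- `s ↦ K₀(k eˢ)` is a decaying solution of `h'' = k² e^{2s} h`. -/
theorem isDecSol_besK724 {k : ℝ} (hk : 0 < k) :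
    IsDecSol k (fun s : ℝ => besK724 (k * Real.exp s)) :=
  besK_decSol724 hk

/-- A decaying solution of `h'' = k² e^{2s} h`, `k > 0`, is a multiple of `K₀(k eˢ)`. -/
theorem decSol_prop724 {k : ℝ} (hk : 0 < k) {h : ℝ → ℝ} (hh : IsDecSol k h) (s : ℝ) :
    h s = h 0 * (besK724 (k * Real.exp s) / besK724 k) := by
  have hK : 0 < besK724 k := besK_pos724 hk
  have h0 : besK724 (k * Real.exp 0) = besK724 k := by rw [Real.exp_zero, mul_one]
  have e1 := H864.odeUniqC864 k _ (isDecSol_sub_smul hh (isDecSol_besK724 hk) (h 0 / besK724 k))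
    ⟨0, by
      show h 0 - h 0 / besK724 k * besK724 (k * Real.exp 0) = 0
      rw [h0, div_mul_cancel₀ _ hK.ne', sub_self]⟩ s
  have e1' : h s = h 0 / besK724 k * besK724 (k * Real.exp s) := sub_eq_zero.mp e1
  rw [e1']
  ring

/-- **The explicit local Whittaker function on the torus.**  A local Whittaker function `f` of
parameter `0` for the character `x ↦ exp(i Re(c̄ x))`, `c ≠ 0`, satisfies
`f(t(y)) = |y| K₀(|c| |y|) / K₀(|c|) · f(1)`. -/
theorem locWhit_explicit724 (c : ℂ) (hc0 : c ≠ 0) (χ : AddChar ℂ Circle)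
    (hc : ∀ x : ℂ, ((χ x : Circle) : ℂ) = chiOf c x) (f : GL (Fin 2) ℂ → ℂ)
    (hf : IsLocWhit χ f) (y : ℂˣ) :
    f (tC y)
      = ((‖(y : ℂ)‖ * besK724 (‖c‖ * ‖(y : ℂ)‖) / besK724 ‖c‖ : ℝ) : ℂ) * f 1 := by
  have hk : 0 < ‖c‖ := norm_pos_iff.mpr hc0
  have hn : 0 < ‖(y : ℂ)‖ := norm_pos_iff.mpr y.ne_zero
  obtain ⟨hre, him⟩ := locWhit_decSol724 c χ hc f hf
  have e1 := decSol_prop724 hk hre (Real.log ‖(y : ℂ)‖)
  have e2 := decSol_prop724 hk him (Real.log ‖(y : ℂ)‖)
  rw [Real.exp_log hn] at e1 e2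
  have hprop : radOf f (Real.log ‖(y : ℂ)‖)
      = ((besK724 (‖c‖ * ‖(y : ℂ)‖) / besK724 ‖c‖ : ℝ) : ℂ) * radOf f 0 := by
    apply Complex.ext
    · rw [Complex.re_ofReal_mul]
      show (radOf f (Real.log ‖(y : ℂ)‖)).re = _
      rw [e1]
      ring
    · rw [Complex.im_ofReal_mul]
      show (radOf f (Real.log ‖(y : ℂ)‖)).im = _
      rw [e2]
      ring
  rw [locWhit_torus724 hf.unitary y, hprop, radOf_zero, ← mul_assoc, ← Complex.ofReal_mul,
    mul_div_assoc]

/-- For `k = 0` a decaying solution (`h'' = 0`, `h → 0`) vanishes. -/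
theorem decSol_zero724 {h : ℝ → ℝ} (hh : IsDecSol 0 h) (s : ℝ) : h s = 0 := by
  obtain ⟨⟨h', hd, hd'⟩, ht⟩ := hh
  -- `h'` is constant
  have hconst : ∀ x y : ℝ, h' x = h' y := by
    apply is_const_of_deriv_eq_zero
    · intro x
      exact (hd' x).differentiableAt
    · intro x
      have := (hd' x).deriv
      rw [this]
      ring
  -- `h` is affine
  set a := h' 0 with ha
  have haff : ∀ x : ℝ, h x = a * x + h 0 := by
    have hder : ∀ x : ℝ, HasDerivAt (fun t : ℝ => h t - a * t) 0 x := by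
      intro x
      have h1 : HasDerivAt (fun t : ℝ => h t - a * t) (h' x - a * 1) x :=
        (hd x).sub ((hasDerivAt_id x).const_mul a)
      have e : h' x - a * 1 = 0 := by rw [hconst x 0]; ring
      rw [e] at h1
      exact h1
    have hz : ∀ x y : ℝ, (fun t => h t - a * t) x = (fun t => h t - a * t) y := by
      apply is_const_of_deriv_eq_zero
      · intro x
        exact (hder x).differentiableAt
      · intro x
        exact (hder x).deriv
    intro x
    have := hz x 0
    simp only [mul_zero, sub_zero] at this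
    linarith
  -- the limit forces `a = 0`, then `h 0 = 0`
  have ha0 : a = 0 := by
    by_contra hne
    have hlim : Tendsto (fun x : ℝ => a * x + h 0) atTop (𝓝 0) := ht.congr haff
    rcases lt_or_gt_of_ne hne with hneg | hpos
    · have h1 : Tendsto (fun x : ℝ => a * x + h 0) atTop atBot :=
        tendsto_atBot_add_const_right _ _ (tendsto_id.const_mul_atTop_of_neg hneg)
      exact not_tendsto_nhds_of_tendsto_atBot h1 0 hlim
    · have h1 : Tendsto (fun x : ℝ => a * x + h 0) atTop atTop :=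
        tendsto_atTop_add_const_right _ _ (tendsto_id.const_mul_atTop hpos)
      exact not_tendsto_nhds_of_tendsto_atTop h1 0 hlim
  have hc : ∀ x : ℝ, h x = h 0 := by
    intro x
    rw [haff x, ha0]
    ring
  have h00 : h 0 = 0 := by
    have hlim : Tendsto (fun _ : ℝ => h 0) atTop (𝓝 0) := ht.congr hc
    exact tendsto_nhds_unique tendsto_const_nhds hlim
  rw [hc s, h00]

/-- For the trivial character a local Whittaker function of parameter `0` vanishes on the torus. -/
theorem locWhit_zero724 (χ : AddChar ℂ Circle)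
    (hc : ∀ x : ℂ, ((χ x : Circle) : ℂ) = chiOf 0 x) (f : GL (Fin 2) ℂ → ℂ)
    (hf : IsLocWhit χ f) (y : ℂˣ) : f (tC y) = 0 := by
  obtain ⟨hre, him⟩ := locWhit_decSol724 0 χ hc f hf
  rw [norm_zero] at hre him
  have hz : radOf f (Real.log ‖(y : ℂ)‖) = 0 := by
    apply Complex.ext
    · exact decSol_zero724 hre _
    · exact decSol_zero724 him _
  rw [locWhit_torus724 hf.unitary y, hz, mul_zero]

end Fermat.Agent.LT.T7.H724

end
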