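import Mathlib
import Fermat.Agent.LT.T7.H62.RigidWhit
import Fermat.Agent.LT.T2.H973.H546.LocEmb
import Fermat.Agent.LT.T2.H98.CharClass
import Fermat.Agent.LT.T7.H724.ArchULocal

/-!
# Row LT, tower T7, leaf T7.14.6b.3 `ARCH-U` (registry row 1719): CLOSED (helper724)

OFF-MAIN.  `archUniqC724 K : Rigid.ArchUniqC K` against `LT/T7/H62/RigidWhit.lean` of helper62
(sha256 ba7c5f11b9432cbd, helper62@401662996), byte-identical copy.

Proof.  At a complex place `w`: local embedding `(j, ι)` (`locEmbC_h546`, helper546), the local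
character `ψ ∘ ι` is `x ↦ exp(i Re(c̄ x))` (`charClassC98`, helper98) with `c ≠ 0` (`ψ` is
non-degenerate); for `g` trivial at `w` the function `h ↦ f(j(h) g)` is a local Whittaker
function of parameter `0`, hence `f(a(t) g) = |t_w| K₀(|c| |t_w|) / K₀(|c|) · f(g)` for an idele
`t` at `w` (`locWhit_explicit724`).  Then induction on the set of infinite places where `y` and
`y'` differ.

* `atInf724 w y`      : the idele with the component of `y` at `w` and `1` elsewhere
* `idele_ext724`      : an idele is determined by its components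
* `isLocWhit_arch724` : `h ↦ f(j(h) g)` is a local Whittaker function
* `arch_step724`      : the explicit factor at one place
* `archUniqC724`      : `Rigid.ArchUniqC K`

Standard axioms only.
-/

set_option autoImplicit false

open IsDedekindDomain NumberField MeasureTheory AutomorphicForm
open Fermat.Agent.LT.H556.A0

noncomputable section

namespace Fermat.Agent.LT.T7.H724

open Fermat.Agent.LT Fermat.Agent.LT.T2 Fermat.Agent.LT.T2.H941 Fermat.Agent.LT.T2.H973
open Fermat.Agent.LT.T1.H793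

variable {K : Type} [Field K] [NumberField K]

open scoped Classical

/-- The adele with the component `a` at the infinite place `w` and `1` elsewhere. -/
def oneAt724 (w : InfinitePlace K) (a : w.Completion) : Adl K :=
  ((Pi.mulSingle w a : InfiniteAdeleRing K), (1 : FiniteAdeleRing (𝓞 K) K))

theorem oneAt_same724 (w : InfinitePlace K) (a : w.Completion) : (oneAt724 w a).1 w = a := by
  show (Pi.mulSingle w a : InfiniteAdeleRing K) w = _
  exact Pi.mulSingle_eq_same _ _

theorem oneAt_ne724 (w : InfinitePlace K) (a : w.Completion) {w' : InfinitePlace K}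
    (hne : w' ≠ w) : (oneAt724 w a).1 w' = 1 := by
  show (Pi.mulSingle w a : InfiniteAdeleRing K) w' = _
  exact Pi.mulSingle_eq_of_ne hne _

theorem oneAt_fin724 (w : InfinitePlace K) (a : w.Completion) (v : HeightOneSpectrum (𝓞 K)) :
    (oneAt724 w a).2 v = 1 := rfl

theorem oneAt_mul724 (w : InfinitePlace K) {a b : w.Completion} (hab : a * b = 1) :
    oneAt724 w a * oneAt724 w b = 1 := by
  refine adl_ext793 (fun w' => ?_) (fun v => ?_)
  · rw [map_mul, map_one]
    show (oneAt724 w a).1 w' * (oneAt724 w b).1 w' = 1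
    by_cases hne : w' = w
    · subst hne
      rw [oneAt_same724, oneAt_same724, hab]
    · rw [oneAt_ne724 w a hne, oneAt_ne724 w b hne, one_mul]
  · rw [map_mul, map_one]
    show (oneAt724 w a).2 v * (oneAt724 w b).2 v = 1
    rw [oneAt_fin724, oneAt_fin724, one_mul]

theorem idele_comp_mul_inv724 (y : (Adl K)ˣ) (w : InfinitePlace K) :
    (y : Adl K).1 w * ((y⁻¹ : (Adl K)ˣ) : Adl K).1 w = 1 := by
  have h1 : ((y : Adl K) * ((y⁻¹ : (Adl K)ˣ) : Adl K)).1 w = 1 := by
    rw [Units.mul_inv]; rfl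
  exact h1

theorem idele_comp_inv_mul724 (y : (Adl K)ˣ) (w : InfinitePlace K) :
    ((y⁻¹ : (Adl K)ˣ) : Adl K).1 w * (y : Adl K).1 w = 1 := by
  rw [mul_comm]
  exact idele_comp_mul_inv724 y w

/-- The idele with the component of `y` at the infinite place `w` and `1` elsewhere. -/
def atInf724 (w : InfinitePlace K) (y : (Adl K)ˣ) : (Adl K)ˣ :=
  ⟨oneAt724 w ((y : Adl K).1 w), oneAt724 w (((y⁻¹ : (Adl K)ˣ) : Adl K).1 w),
    oneAt_mul724 w (idele_comp_mul_inv724 y w), oneAt_mul724 w (idele_comp_inv_mul724 y w)⟩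

theorem atInf_val724 (w : InfinitePlace K) (y : (Adl K)ˣ) :
    ((atInf724 w y : (Adl K)ˣ) : Adl K) = oneAt724 w ((y : Adl K).1 w) := rfl

theorem atInf_inv724 (w : InfinitePlace K) (y : (Adl K)ˣ) :
    (((atInf724 w y)⁻¹ : (Adl K)ˣ) : Adl K)
      = oneAt724 w (((y⁻¹ : (Adl K)ˣ) : Adl K).1 w) := rfl

theorem isIdeleAtInf_atInf724 (w : InfinitePlace K) (y : (Adl K)ˣ) :
    IsIdeleAtInf w (atInf724 w y) := by
  refine ⟨fun w' hne => ?_, fun v => ?_⟩
  · rw [atInf_val724]
    exact oneAt_ne724 w _ hne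
  · rw [atInf_val724]
    rfl

/-- An idele is determined by its components. -/
theorem idele_ext724 {y y' : (Adl K)ˣ}
    (h1 : ∀ w : InfinitePlace K, (y : Adl K).1 w = (y' : Adl K).1 w)
    (h2 : ∀ v : HeightOneSpectrum (𝓞 K), (y : Adl K).2 v = (y' : Adl K).2 v) : y = y' :=
  Units.ext (adl_ext793 h1 h2)

theorem dgA_eq_tor724 (y : (Adl K)ˣ) : Rigid.dgA y = tor y := rfl

theorem tor_mul724 (y y' : (Adl K)ˣ) : tor (y * y') = tor y * tor y' := by
  apply Units.ext
  have ht : ∀ z : (Adl K)ˣ,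
      ((tor z : G K) : Matrix (Fin 2) (Fin 2) (Adl K)) = !![(z : Adl K), 0; 0, 1] := fun _ => rfl
  rw [Units.val_mul, ht, ht, ht, Matrix.mul_fin_two]
  simp

/-- `diag(y, 1)` is trivial at `w` if `y_w = 1`. -/
theorem trivAtInf_tor724 {w : InfinitePlace K} {y : (Adl K)ˣ} (hy : (y : Adl K).1 w = 1) :
    TrivAtInf w (tor y) := by
  have ht : ((tor y : G K) : Matrix (Fin 2) (Fin 2) (Adl K)) = !![(y : Adl K), 0; 0, 1] := rfl
  intro i j
  rw [ht]
  fin_cases i <;> fin_cases j
  · simp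
    exact hy
  · simp
    rfl
  · simp
    rfl
  · simp
    rfl

/-- `h ↦ f(j(h) g)` is a local Whittaker function of parameter `0` for `ψ ∘ ι`
(`g` trivial at `w`). -/
theorem isLocWhit_arch724 {ψ : AddChar (Adl K) Circle} {f : G K → ℂ}
    (hf : Rigid.IsArchWhit ψ f) {w : InfinitePlace K} (hw : w.IsComplex)
    {j : GL (Fin 2) ℂ →* G K} {ι : ℂ →+ Adl K} (hj : IsLocEmb w j ι)
    {g : G K} (hg : TrivAtInf w g) :
    IsLocWhit (ψ.compAddMonoidHom ι) (fun h : GL (Fin 2) ℂ => f (j h * g)) := by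
  have hnr : ¬ w.IsReal := InfinitePlace.not_isReal_iff_isComplex.mpr hw
  refine ⟨?_, ?_, ?_, ?_, ?_, ?_⟩
  · exact hf.cont.comp (hj.cont.mul continuous_const)
  · obtain ⟨C, hC⟩ := hf.bdd
    exact ⟨C, fun h => hC _⟩
  · intro x h
    show f (j (nC x * h) * g) = ((ψ (ι x) : Circle) : ℂ) * f (j h * g)
    rw [map_mul, hj.unip, mul_assoc, hf.equiv]
  · intro u h hu
    show f (j (h * u) * g) = f (j h * g)
    have hk : IsArchCompact w (j u) :=
      ⟨hj.loc u, by rw [hj.comp]; exact hu, fun hr => absurd hr hnr⟩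
    rw [map_mul, mul_assoc, hj.comm u g hg, ← mul_assoc]
    exact hf.arch_compact w (j u) hk _
  · intro z h r hr hz
    show f (j (h * z) * g) = f (j h * g)
    have hk : IsArchPosScalar w (j z) :=
      ⟨hj.loc z, r, hr, by rw [hj.comp]; exact hz⟩
    rw [map_mul, mul_assoc, hj.comm z g hg, ← mul_assoc]
    exact hf.arch_scalar w (j z) hk _
  · intro d hd Y hY h
    have h3 := hf.mean_complex w hw d hd (fun α β => j (Y α β))
      (fun α β => ⟨hj.loc _, by rw [hj.comp]; exact hY α β⟩) (j h * g)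
    have e : ∀ α β : ℝ, f (j (h * Y α β) * g) = f (j h * g * j (Y α β)) := by
      intro α β
      rw [map_mul, mul_assoc, hj.comm (Y α β) g hg, ← mul_assoc]
    simp only [e]
    exact h3

/-- The components of `ι x`: `x` at `w`, `0` elsewhere. -/
theorem iota_comp_arch724 {w : InfinitePlace K} {j : GL (Fin 2) ℂ →* G K} {ι : ℂ →+ Adl K}
    (hj : IsLocEmb w j ι) (x : ℂ) :
    InfinitePlace.Completion.extensionEmbedding w ((ι x).1 w) = x ∧
      (∀ w' : InfinitePlace K, w' ≠ w → (ι x).1 w' = 0) ∧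
      ∀ v : HeightOneSpectrum (𝓞 K), (ι x).2 v = 0 := by
  have hu : ((j (nC x) : G K) : Matrix (Fin 2) (Fin 2) (Adl K)) 0 1 = ι x := by
    rw [hj.unip x]
    rfl
  refine ⟨?_, ?_, ?_⟩
  · have h1 := congrFun (congrFun (hj.comp (nC x)) 0) 1
    unfold infComp at h1
    rw [hu] at h1
    rw [h1]
    rfl
  · intro w' hne
    have h1 := (hj.loc (nC x)).1 w' hne 0 1
    rw [hu] at h1
    rw [h1]
    rfl
  · intro v
    have h1 := congrFun (congrFun ((hj.loc (nC x)).2 v) 0) 1
    unfold finComp at h1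
    rw [hu] at h1
    rw [h1]
    rfl

/-- For a non-degenerate character `ψ` the local character `ψ ∘ ι` at `w` is non-trivial. -/
theorem locChar_nontriv_arch724 {ψ : AddChar (Adl K) Circle} (hnd : T3.IsNonDeg K ψ)
    {w : InfinitePlace K} {j : GL (Fin 2) ℂ →* G K} {ι : ℂ →+ Adl K}
    (hj : IsLocEmb w j ι) : ∃ x : ℂ, ψ (ι x) ≠ 1 := by
  by_contra hcon
  have hall : ∀ x : ℂ, ψ (ι x) = 1 := by
    intro x
    by_contra hx
    exact hcon ⟨x, hx⟩
  obtain ⟨h1w, h1ne, h1f⟩ := iota_comp_arch724 hj 1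
  have h1w' : (ι 1).1 w = 1 := by
    apply (InfinitePlace.Completion.extensionEmbedding w).injective
    rw [h1w, map_one]
  have hz : ι 1 = 0 := by
    apply hnd
    intro y
    have e : ι 1 * y = ι (InfinitePlace.Completion.extensionEmbedding w (y.1 w)) := by
      obtain ⟨hw2, hne2, hf2⟩ :=
        iota_comp_arch724 hj (InfinitePlace.Completion.extensionEmbedding w (y.1 w))
      refine adl_ext793 (fun w' => ?_) (fun v => ?_)
      · rw [map_mul]
        show (ι 1).1 w' * y.1 w' = (ι _).1 w'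
        by_cases hww : w' = w
        · subst hww
          rw [h1w', one_mul]
          exact ((InfinitePlace.Completion.extensionEmbedding w').injective hw2).symm
        · rw [h1ne w' hww, hne2 w' hww, zero_mul]
      · rw [map_mul]
        show (ι 1).2 v * y.2 v = (ι _).2 v
        rw [h1f v, hf2 v, zero_mul]
    rw [e]
    exact hall _
  rw [hz] at h1w'
  exact zero_ne_one h1w'

/-- `chiOf 0` is trivial. -/
theorem chiOf_zero_arch724 (x : ℂ) : chiOf 0 x = 1 := by
  unfold chiOf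
  rw [map_zero, zero_mul, Complex.zero_re, Complex.ofReal_zero, mul_zero, Complex.exp_zero]

/-- **The explicit factor at one complex place.** -/
theorem arch_step724 {ψ : AddChar (Adl K) Circle} (hψ : T3.IsStdChar K ψ)
    (hnd : T3.IsNonDeg K ψ) {w : InfinitePlace K} (hw : w.IsComplex) :
    ∃ c : ℝ, 0 < c ∧
      ∀ f : G K → ℂ, Rigid.IsArchWhit ψ f →
        ∀ t : (Adl K)ˣ, IsIdeleAtInf w t → ∀ g : G K, TrivAtInf w g →
          f (tor t * g)
            = ((‖(t : Adl K).1 w‖ * besK724 (c * ‖(t : Adl K).1 w‖) / besK724 c : ℝ) : ℂ)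
                * f g := by
  obtain ⟨j, ι, hj⟩ := H546.locEmbC_h546 K w hw
  set χ : AddChar ℂ Circle := ψ.compAddMonoidHom ι with hχdef
  have hχv : ∀ x : ℂ, χ x = ψ (ι x) := fun x => rfl
  have hχ : Continuous χ := by
    have : (χ : ℂ → Circle) = fun x => ψ (ι x) := funext hχv
    rw [this]
    exact hψ.cont.comp hj.contAdd
  obtain ⟨c, hc⟩ := H98.charClassC98 χ hχ
  have hc0 : c ≠ 0 := by
    intro h0
    obtain ⟨x, hx⟩ := locChar_nontriv_arch724 hnd hj
    apply hx
    have h1 := hc x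
    rw [h0, chiOf_zero_arch724, hχv] at h1
    exact Circle.ext (by rw [h1]; rfl)
  refine ⟨‖c‖, norm_pos_iff.mpr hc0, ?_⟩
  intro f hf t ht g hg
  have hLW := isLocWhit_arch724 hf hw hj hg
  have yne : InfinitePlace.Completion.extensionEmbedding w ((t : Adl K).1 w) ≠ 0 := by
    rw [Ne, map_eq_zero]
    intro h0
    have h1 := idele_comp_mul_inv724 t w
    rw [h0, zero_mul] at h1
    exact zero_ne_one h1
  have h4 := locWhit_explicit724 c hc0 χ hc _ hLW (Units.mk0 _ yne)
  have h5 : tor t = j (tC (Units.mk0 _ yne)) := hj.tor t ht (Units.mk0 _ yne) rfl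
  have hnorm : ‖((Units.mk0 _ yne : ℂˣ) : ℂ)‖ = ‖(t : Adl K).1 w‖ := by
    rw [Units.val_mk0]
    exact (InfinitePlace.Completion.isometry_extensionEmbedding w).norm_map_of_map_zero
      (map_zero _) _
  rw [hnorm] at h4
  rw [h5]
  have h6 : f (j 1 * g) = f g := by rw [map_one, one_mul]
  rw [← h6]
  exact h4

/-- **Registry row 1719: `Rigid.ArchUniqC K`, CLOSED.** -/
theorem archUniqC724 (K : Type) [Field K] [NumberField K] : Rigid.ArchUniqC K := by
  intro hT ψ hψ hnd
  have hex : ∀ w : InfinitePlace K, ∃ c : ℝ, 0 < c ∧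
      ∀ f : G K → ℂ, Rigid.IsArchWhit ψ f →
        ∀ t : (Adl K)ˣ, IsIdeleAtInf w t → ∀ g : G K, TrivAtInf w g →
          f (tor t * g)
            = ((‖(t : Adl K).1 w‖ * besK724 (c * ‖(t : Adl K).1 w‖) / besK724 c : ℝ) : ℂ)
                * f g := fun w => arch_step724 hψ hnd (hT w)
  choose c hc hstep using hex
  refine ⟨c, hc, ?_⟩
  intro f hf
  -- the local factor
  set κ : InfinitePlace K → (Adl K)ˣ → ℝ :=
    fun w y => ‖(y : Adl K).1 w‖ * besK724 (c w * ‖(y : Adl K).1 w‖) with hκ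
  have hprof : ∀ y : (Adl K)ˣ, Rigid.archProfile c y = ∏ w : InfinitePlace K, κ w y :=
    fun y => rfl
  -- induction on the set of places where `y` and `y'` may differ
  have hB : ∀ s : Finset (InfinitePlace K), ∀ y y' : (Adl K)ˣ,
      (∀ v : HeightOneSpectrum (𝓞 K), (y : Adl K).2 v = (y' : Adl K).2 v) →
      (∀ w : InfinitePlace K, w ∉ s → (y : Adl K).1 w = (y' : Adl K).1 w) →
      f (tor y) * ((∏ w ∈ s, κ w y' : ℝ) : ℂ) = f (tor y') * ((∏ w ∈ s, κ w y : ℝ) : ℂ) := by
    intro s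
    induction s using Finset.induction_on with
    | empty =>
      intro y y' hfin hinf
      have hyy : y = y' := idele_ext724 (fun w => hinf w (Finset.notMem_empty w)) hfin
      rw [hyy]
    | insert w₀ s hw₀ ih =>
      intro y y' hfin hinf
      set t := atInf724 w₀ y with ht
      set t' := atInf724 w₀ y' with ht'
      set y₀ : (Adl K)ˣ := t⁻¹ * y with hy₀
      set y'' : (Adl K)ˣ := t' * y₀ with hy''
      have hy₀w : (y₀ : Adl K).1 w₀ = 1 := by
        show (((t⁻¹ : (Adl K)ˣ) : Adl K) * (y : Adl K)).1 w₀ = 1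
        rw [ht, atInf_inv724]
        show (oneAt724 w₀ _).1 w₀ * (y : Adl K).1 w₀ = 1
        rw [oneAt_same724]
        exact idele_comp_inv_mul724 y w₀
      have hy₀ne : ∀ w : InfinitePlace K, w ≠ w₀ → (y₀ : Adl K).1 w = (y : Adl K).1 w := by
        intro w hne
        show (((t⁻¹ : (Adl K)ˣ) : Adl K) * (y : Adl K)).1 w = _
        rw [ht, atInf_inv724]
        show (oneAt724 w₀ _).1 w * (y : Adl K).1 w = _
        rw [oneAt_ne724 w₀ _ hne, one_mul]
      have hy₀fin : ∀ v : HeightOneSpectrum (𝓞 K), (y₀ : Adl K).2 v = (y : Adl K).2 v := by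
        intro v
        show (((t⁻¹ : (Adl K)ˣ) : Adl K) * (y : Adl K)).2 v = _
        rw [ht, atInf_inv724]
        show (oneAt724 w₀ _).2 v * (y : Adl K).2 v = _
        rw [oneAt_fin724, one_mul]
      have hg₀ : TrivAtInf w₀ (tor y₀) := trivAtInf_tor724 hy₀w
      have hyt : y = t * y₀ := by rw [hy₀, mul_inv_cancel_left]
      have e1 := hstep w₀ f hf t (isIdeleAtInf_atInf724 w₀ y) (tor y₀) hg₀
      have e2 := hstep w₀ f hf t' (isIdeleAtInf_atInf724 w₀ y') (tor y₀) hg₀
      rw [← tor_mul724, ← hyt] at e1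
      rw [← tor_mul724, ← hy''] at e2
      have htw : (t : Adl K).1 w₀ = (y : Adl K).1 w₀ := by
        rw [ht, atInf_val724, oneAt_same724]
      have htw' : (t' : Adl K).1 w₀ = (y' : Adl K).1 w₀ := by
        rw [ht', atInf_val724, oneAt_same724]
      rw [htw] at e1
      rw [htw'] at e2
      -- the components of `y''`
      have hy''w : (y'' : Adl K).1 w₀ = (y' : Adl K).1 w₀ := by
        show ((t' : Adl K) * (y₀ : Adl K)).1 w₀ = _
        show (t' : Adl K).1 w₀ * (y₀ : Adl K).1 w₀ = _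
        rw [hy₀w, mul_one, htw']
      have hy''ne : ∀ w : InfinitePlace K, w ≠ w₀ → (y'' : Adl K).1 w = (y : Adl K).1 w := by
        intro w hne
        show (t' : Adl K).1 w * (y₀ : Adl K).1 w = _
        rw [hy₀ne w hne, ht', atInf_val724, oneAt_ne724 w₀ _ hne, one_mul]
      have hy''fin : ∀ v : HeightOneSpectrum (𝓞 K), (y'' : Adl K).2 v = (y' : Adl K).2 v := by
        intro v
        show (t' : Adl K).2 v * (y₀ : Adl K).2 v = _
        rw [hy₀fin v, ht', atInf_val724, oneAt_fin724, one_mul, hfin v]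
      have e3 := ih y'' y' hy''fin (fun w hws => by
        by_cases hne : w = w₀
        · rw [hne]; exact hy''w
        · rw [hy''ne w hne]
          exact hinf w (fun hmem => by
            rcases Finset.mem_insert.mp hmem with h | h
            · exact hne h
            · exact hws h))
      have e4 : ∏ w ∈ s, κ w y'' = ∏ w ∈ s, κ w y := by
        refine Finset.prod_congr rfl fun w hws => ?_
        have hne : w ≠ w₀ := fun h => hw₀ (h ▸ hws)
        show ‖(y'' : Adl K).1 w‖ * besK724 (c w * ‖(y'' : Adl K).1 w‖)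
          = ‖(y : Adl K).1 w‖ * besK724 (c w * ‖(y : Adl K).1 w‖)
        rw [hy''ne w hne]
      rw [e4] at e3
      rw [Finset.prod_insert hw₀, Finset.prod_insert hw₀]
      have hk : besK724 (c w₀) ≠ 0 := (besK_pos724 (hc w₀)).ne'
      have hkc : ((besK724 (c w₀) : ℝ) : ℂ) ≠ 0 := by
        rw [Ne, Complex.ofReal_eq_zero]; exact hk
      have a1 : f (tor y) * ((besK724 (c w₀) : ℝ) : ℂ) = ((κ w₀ y : ℝ) : ℂ) * f (tor y₀) := by
        rw [e1]
        show _ = ((‖(y : Adl K).1 w₀‖ * besK724 (c w₀ * ‖(y : Adl K).1 w₀‖) : ℝ) : ℂ)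
          * f (tor y₀)
        push_cast
        field_simp
      have a2 : f (tor y'') * ((besK724 (c w₀) : ℝ) : ℂ) = ((κ w₀ y' : ℝ) : ℂ) * f (tor y₀) := by
        rw [e2]
        show _ = ((‖(y' : Adl K).1 w₀‖ * besK724 (c w₀ * ‖(y' : Adl K).1 w₀‖) : ℝ) : ℂ)
          * f (tor y₀)
        push_cast
        field_simp
      apply mul_right_cancel₀ hkc
      calc f (tor y) * ((κ w₀ y' * ∏ w ∈ s, κ w y' : ℝ) : ℂ) * ((besK724 (c w₀) : ℝ) : ℂ)
          = (f (tor y) * ((besK724 (c w₀) : ℝ) : ℂ)) * ((κ w₀ y' : ℝ) : ℂ)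
              * ((∏ w ∈ s, κ w y' : ℝ) : ℂ) := by push_cast; ring
        _ = ((κ w₀ y : ℝ) : ℂ) * (((κ w₀ y' : ℝ) : ℂ) * f (tor y₀))
              * ((∏ w ∈ s, κ w y' : ℝ) : ℂ) := by rw [a1]; ring
        _ = ((κ w₀ y : ℝ) : ℂ) * ((f (tor y'') * ((∏ w ∈ s, κ w y' : ℝ) : ℂ))
              * ((besK724 (c w₀) : ℝ) : ℂ)) := by rw [← a2]; ring
        _ = ((κ w₀ y : ℝ) : ℂ) * ((f (tor y') * ((∏ w ∈ s, κ w y : ℝ) : ℂ))
              * ((besK724 (c w₀) : ℝ) : ℂ)) := by rw [e3]
        _ = f (tor y') * ((κ w₀ y * ∏ w ∈ s, κ w y : ℝ) : ℂ) * ((besK724 (c w₀) : ℝ) : ℂ) := by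
            push_cast; ring
  intro y y' hfin
  have h := hB Finset.univ y y' hfin (fun w hw => absurd (Finset.mem_univ w) hw)
  rw [dgA_eq_tor724, dgA_eq_tor724, hprof, hprof]
  exact h

end Fermat.Agent.LT.T7.H724

end
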