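import Mathlib

/-!
# Row LT, tower T7, leaf T7.14.3a `CountMeasC`: the abstract measurability lemmas (helper724)

OFF-MAIN, Mathlib only.

* `measurable_of_countable_cover724` : a function which agrees with measurable functions on the
  members of a countable measurable cover is measurable;
* `measurable_finprod724` : `a ↦ ∏ᶠ i, f i a` is measurable for a COUNTABLE family of measurable
  real functions (no finiteness of the supports is needed);
* `measurable_natCard724` : `a ↦ Nat.card {x | a ∈ A x}` is measurable for a COUNTABLE family of
  measurable sets (no finiteness is needed: `Nat.card` of an infinite set is `0`);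
* `measurableSet_ratio724` : `{a | ∃ t ∈ C, p a = t * q a}` is measurable for continuous `p`, `q`
  with values in a topological field and `C` closed.
-/

set_option autoImplicit false

open MeasureTheory

namespace Fermat.Agent.LT.T7.H724

/-- A function which agrees with measurable functions on the members of a countable measurable
cover is measurable. -/
theorem measurable_of_countable_cover724 {α β ι : Type*} [MeasurableSpace α] [MeasurableSpace β]
    [Countable ι] (E : ι → Set α) (hE : ∀ i, MeasurableSet (E i)) (hcov : ∀ a, ∃ i, a ∈ E i)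
    (F : ι → α → β) (hF : ∀ i, Measurable (F i)) (f : α → β)
    (hf : ∀ i, ∀ a ∈ E i, f a = F i a) : Measurable f := by
  intro B hB
  have h : f ⁻¹' B = ⋃ i, E i ∩ F i ⁻¹' B := by
    ext a
    simp only [Set.mem_preimage, Set.mem_iUnion, Set.mem_inter_iff]
    constructor
    · intro ha
      obtain ⟨i, hi⟩ := hcov a
      exact ⟨i, hi, by rw [← hf i a hi]; exact ha⟩
    · rintro ⟨i, hi, ha⟩
      rw [hf i a hi]
      exact ha
  rw [h]
  exact MeasurableSet.iUnion fun i => (hE i).inter (hF i hB)

/-- The set where a countable family of "predicates with measurable truth sets" has a given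
finite truth set. -/
theorem measurableSet_eq_finset724 {α P : Type*} [MeasurableSpace α] [Countable P]
    (A : P → Set α) (hA : ∀ x, MeasurableSet (A x)) (T : Finset P) :
    MeasurableSet {a | {x | a ∈ A x} = (T : Set P)} := by
  classical
  have h : {a | {x | a ∈ A x} = (T : Set P)}
      = ⋂ x : P, (if x ∈ T then A x else (A x)ᶜ) := by
    ext a
    simp only [Set.mem_ofPred_eq, Set.mem_iInter]
    constructor
    · intro h x
      by_cases hx : x ∈ T
      · rw [if_pos hx]
        have : x ∈ {x | a ∈ A x} := by rw [h]; exact hx
        exact this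
      · rw [if_neg hx]
        intro hax
        have : x ∈ (T : Set P) := by rw [← h]; exact hax
        exact hx this
    · intro h
      ext x
      have hx := h x
      by_cases hxT : x ∈ T
      · rw [if_pos hxT] at hx
        simp only [Set.mem_ofPred_eq, Finset.mem_coe]
        exact ⟨fun _ => hxT, fun _ => hx⟩
      · rw [if_neg hxT] at hx
        simp only [Set.mem_ofPred_eq, Finset.mem_coe]
        exact ⟨fun hax => absurd hax hx, fun h' => absurd h' hxT⟩
  rw [h]
  refine MeasurableSet.iInter fun x => ?_
  by_cases hx : x ∈ T
  · rw [if_pos hx]; exact hA x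
  · rw [if_neg hx]; exact (hA x).compl

/-- The set where the truth set is infinite. -/
theorem measurableSet_infinite724 {α P : Type*} [MeasurableSpace α] [Countable P]
    (A : P → Set α) (hA : ∀ x, MeasurableSet (A x)) :
    MeasurableSet {a | {x | a ∈ A x}.Infinite} := by
  have h : {a | {x | a ∈ A x}.Infinite}
      = (⋃ T : Finset P, {a | {x | a ∈ A x} = (T : Set P)})ᶜ := by
    ext a
    simp only [Set.mem_ofPred_eq, Set.mem_compl_iff, Set.mem_iUnion, not_exists]
    constructor
    · intro hinf T hT
      rw [hT] at hinf
      exact hinf T.finite_toSet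
    · intro h hfin
      obtain ⟨T, hT⟩ := hfin.exists_finset_coe
      exact h T hT.symm
  rw [h]
  exact (MeasurableSet.iUnion fun T => measurableSet_eq_finset724 A hA T).compl

/-- `a ↦ Nat.card {x | a ∈ A x}` is measurable for a countable family of measurable sets. -/
theorem measurable_natCard724 {α P : Type*} [MeasurableSpace α] [Countable P]
    (A : P → Set α) (hA : ∀ x, MeasurableSet (A x)) :
    Measurable fun a => (Nat.card {x | a ∈ A x} : ℝ) := by
  classical
  refine measurable_of_countable_cover724
    (ι := Option (Finset P))
    (fun o => match o with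
      | none => {a | {x | a ∈ A x}.Infinite}
      | some T => {a | {x | a ∈ A x} = (T : Set P)})
    ?_ ?_
    (fun o => match o with
      | none => fun _ => (0 : ℝ)
      | some T => fun _ => (T.card : ℝ))
    ?_ _ ?_
  · rintro (_ | T)
    · exact measurableSet_infinite724 A hA
    · exact measurableSet_eq_finset724 A hA T
  · intro a
    by_cases hfin : {x | a ∈ A x}.Finite
    · obtain ⟨T, hT⟩ := hfin.exists_finset_coe
      exact ⟨some T, hT.symm⟩
    · exact ⟨none, hfin⟩
  · rintro (_ | T)
    · exact measurable_const
    · exact measurable_const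
  · rintro (_ | T) a ha
    · have hinf : {x | a ∈ A x}.Infinite := ha
      have : Infinite {x | a ∈ A x} := hinf.to_subtype
      simp only [Nat.card_eq_zero_of_infinite, Nat.cast_zero]
    · have hT : {x | a ∈ A x} = (T : Set P) := ha
      simp only
      rw [hT, Nat.card_coe_set_eq, Set.ncard_coe_finset]

/-- `a ↦ ∏ᶠ i, f i a` is measurable for a countable family of measurable real functions. -/
theorem measurable_finprod724 {α ι : Type*} [MeasurableSpace α] [Countable ι]
    (f : ι → α → ℝ) (hf : ∀ i, Measurable (f i)) :
    Measurable fun a => ∏ᶠ i, f i a := by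
  classical
  have hA : ∀ i, MeasurableSet {a | f i a ≠ 1} := fun i =>
    (hf i (measurableSet_singleton (1 : ℝ))).compl
  refine measurable_of_countable_cover724
    (ι := Option (Finset ι))
    (fun o => match o with
      | none => {a | {i | a ∈ {a | f i a ≠ 1}}.Infinite}
      | some T => {a | {i | a ∈ {a | f i a ≠ 1}} = (T : Set ι)})
    ?_ ?_
    (fun o => match o with
      | none => fun _ => (1 : ℝ)
      | some T => fun a => ∏ i ∈ T, f i a)
    ?_ _ ?_
  · rintro (_ | T)
    · exact measurableSet_infinite724 _ hA
    · exact measurableSet_eq_finset724 _ hA T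
  · intro a
    by_cases hfin : {i | a ∈ {a | f i a ≠ 1}}.Finite
    · obtain ⟨T, hT⟩ := hfin.exists_finset_coe
      exact ⟨some T, hT.symm⟩
    · exact ⟨none, hfin⟩
  · rintro (_ | T)
    · exact measurable_const
    · exact Finset.measurable_prod T fun i _ => hf i
  · rintro (_ | T) a ha
    · have hinf : (Function.mulSupport fun i => f i a).Infinite := ha
      exact finprod_of_infinite_mulSupport hinf
    · have hT : (Function.mulSupport fun i => f i a) = (T : Set ι) := ha
      exact finprod_eq_prod_of_mulSupport_subset _ hT.le

/-- `{a | ∃ t ∈ C, p a = t * q a}` is measurable for continuous `p`, `q` with values in a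
topological field and `C` closed. -/
theorem measurableSet_ratio724 {α k : Type*} [TopologicalSpace α] [MeasurableSpace α]
    [OpensMeasurableSpace α] [Field k] [TopologicalSpace k] [IsTopologicalDivisionRing k]
    [T1Space k] (p q : α → k) (hp : Continuous p) (hq : Continuous q) (C : Set k)
    (hC : IsClosed C) :
    MeasurableSet {a | ∃ t ∈ C, p a = t * q a} := by
  have hU : IsOpen {a | q a ≠ 0} := isOpen_ne_fun hq continuous_const
  have hO : IsOpen ({a | q a ≠ 0} ∩ (fun a => p a / q a) ⁻¹' Cᶜ) := by
    refine ContinuousOn.isOpen_inter_preimage ?_ hU hC.isOpen_compl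
    exact hp.continuousOn.div hq.continuousOn fun a ha => ha
  have hZ : IsClosed {a | p a = 0 ∧ q a = 0} :=
    (isClosed_eq hp continuous_const).inter (isClosed_eq hq continuous_const)
  have h : {a | ∃ t ∈ C, p a = t * q a}
      = ({a | q a ≠ 0} \ ({a | q a ≠ 0} ∩ (fun a => p a / q a) ⁻¹' Cᶜ))
        ∪ ({a | p a = 0 ∧ q a = 0} ∩ {_a | C.Nonempty}) := by
    ext a
    simp only [Set.mem_ofPred_eq, Set.mem_union, Set.mem_sdiff, Set.mem_inter_iff,
      Set.mem_preimage, Set.mem_compl_iff, not_and, not_not]
    constructor
    · rintro ⟨t, ht, e⟩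
      by_cases hq0 : q a = 0
      · right
        refine ⟨⟨?_, hq0⟩, ⟨t, ht⟩⟩
        rw [e, hq0, mul_zero]
      · left
        refine ⟨hq0, fun _ => ?_⟩
        rw [e, mul_div_assoc, div_self hq0, mul_one]
        exact ht
    · rintro (⟨hq0, h⟩ | ⟨⟨hp0, hq0⟩, ⟨t, ht⟩⟩)
      · refine ⟨p a / q a, h hq0, ?_⟩
        rw [div_mul_cancel₀ _ hq0]
      · exact ⟨t, ht, by rw [hp0, hq0, mul_zero]⟩
  rw [h]
  refine (hU.measurableSet.diff hO.measurableSet).union (hZ.measurableSet.inter ?_)
  by_cases hne : C.Nonempty
  · simp [hne]
  · simp [hne]

end Fermat.Agent.LT.T7.H724
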