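import Mathlib
import Fermat.Agent.LT.T7.H671.CountSpec
import Fermat.Agent.LT.T7.H724.CountMeasAbs

/-!
# Row LT, tower T7, node T7.14 `RigidC`, leaf T7.14.3a `CountMeasC` (helper724, registry 1656)

OFF-MAIN.  `g ↦ cnt 𝔪 Y g` is Borel measurable on `GL₂(𝔸_K)`.  Imports the cut
`LT/T7/H671/CountSpec.lean` (helper671, sha256 4766156d) byte-identically; nothing is assumed
(`TotCplx K`, `𝔪 ≠ ⊥`, `0 < Y` are not used).

`ℙ¹(K)` and the set of finite places are countable.  For a fixed point `x` of `ℙ¹(K)` the set
`{g | x ∈ cntSet 𝔪 Y g}` is measurable: the local factors of `rowNorm` and `adNorm` are continuous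
in `g`, a `finprod` of countably many measurable functions is measurable
(`measurable_finprod724`), and the congruence condition at `v` is (open minus open) ∪ closed
(`measurableSet_ratio724`).  Then `measurable_natCard724`.  No finiteness (Northcott) is needed.
-/

set_option autoImplicit false

open AutomorphicForm IsDedekindDomain NumberField MeasureTheory

noncomputable section

namespace Fermat.Agent.LT.T7.H724

open Fermat.Agent.LT.H556 Fermat.Agent.LT.H556.A0 Fermat.Agent.LT.T7 Fermat.Agent.LT.T7.Rigid

attribute [local instance] Fermat.Agent.LT.T5.instMeasurableSpaceG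

variable (K : Type) [Field K] [NumberField K]

/-! ## Countability -/

theorem countable_field724 : Countable K :=
  (Module.finBasis ℚ K).equivFun.toEquiv.countable_iff.mpr inferInstance

theorem countable_ideal724 : Countable (Ideal (𝓞 K)) := by
  have : Countable K := countable_field724 K
  have : Countable (𝓞 K) := Subtype.countable
  have hs : Function.Surjective (fun s : Finset (𝓞 K) => Ideal.span (s : Set (𝓞 K))) := by
    intro I
    obtain ⟨s, hs⟩ := (IsNoetherian.noetherian I : I.FG)
    exact ⟨s, hs⟩
  exact hs.countable

theorem countable_places724 : Countable (HeightOneSpectrum (𝓞 K)) := by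
  have : Countable (Ideal (𝓞 K)) := countable_ideal724 K
  have hi : Function.Injective (fun v : HeightOneSpectrum (𝓞 K) => v.asIdeal) :=
    fun v w h => HeightOneSpectrum.ext h
  exact hi.countable

theorem countable_proj724 : Countable (Projectivization K (Fin 2 → K)) := by
  have : Countable K := countable_field724 K
  have hs : Function.Surjective
      (fun v : {v : Fin 2 → K // v ≠ 0} => Projectivization.mk K v.1 v.2) := by
    intro x
    exact ⟨⟨x.rep, x.rep_nonzero⟩, x.mk_rep⟩
  exact hs.countable

variable {K}

/-! ## Continuity of the local components -/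

theorem continuous_fin724 (v : HeightOneSpectrum (𝓞 K)) :
    Continuous (fun a : Adl K => a.2 v) :=
  (RestrictedProduct.continuous_eval v).comp continuous_snd

theorem continuous_inf724 (w : InfinitePlace K) :
    Continuous (fun a : Adl K => a.1 w) :=
  (continuous_apply w).comp continuous_fst

theorem continuous_entry724 (i j : Fin 2) :
    Continuous (fun g : G K => (g : Matrix (Fin 2) (Fin 2) (Adl K)) i j) := by
  fun_prop

theorem continuous_rowOf724 (x : Fin 2 → K) (j : Fin 2) :
    Continuous (fun g : G K => rowOf x g j) := by
  unfold rowOf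
  exact (continuous_const.mul (continuous_entry724 0 j)).add
    (continuous_const.mul (continuous_entry724 1 j))

theorem continuous_det724 :
    Continuous (fun g : G K => Matrix.det (g : Matrix (Fin 2) (Fin 2) (Adl K))) := by
  have : (fun g : G K => Matrix.det (g : Matrix (Fin 2) (Fin 2) (Adl K)))
      = fun g : G K => (g : Matrix (Fin 2) (Fin 2) (Adl K)) 0 0
          * (g : Matrix (Fin 2) (Fin 2) (Adl K)) 1 1
        - (g : Matrix (Fin 2) (Fin 2) (Adl K)) 0 1 * (g : Matrix (Fin 2) (Fin 2) (Adl K)) 1 0 := by
    funext g
    exact Matrix.det_fin_two _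
  rw [this]
  exact ((continuous_entry724 0 0).mul (continuous_entry724 1 1)).sub
    ((continuous_entry724 0 1).mul (continuous_entry724 1 0))

/-! ## Measurability of the two heights -/

theorem borelSpaceG724 : BorelSpace (G K) := ⟨rfl⟩

theorem measurable_rowNorm724 (x : Fin 2 → K) :
    Measurable (fun g : G K => rowNorm (rowOf x g)) := by
  have : BorelSpace (G K) := borelSpaceG724
  have : Countable (HeightOneSpectrum (𝓞 K)) := countable_places724 K
  unfold rowNorm
  refine Measurable.mul ?_ ?_
  · refine Finset.measurable_prod _ fun w _ => ?_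
    refine Measurable.pow_const ?_ _
    refine Measurable.add ?_ ?_
    · exact ((continuous_norm.comp ((continuous_inf724 w).comp
        (continuous_rowOf724 x 0))).measurable).pow_const 2
    · exact ((continuous_norm.comp ((continuous_inf724 w).comp
        (continuous_rowOf724 x 1))).measurable).pow_const 2
  · refine measurable_finprod724 _ fun v => ?_
    refine Measurable.max ?_ ?_
    · exact (continuous_norm.comp ((continuous_fin724 v).comp
        (continuous_rowOf724 x 0))).measurable
    · exact (continuous_norm.comp ((continuous_fin724 v).comp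
        (continuous_rowOf724 x 1))).measurable

theorem measurable_adNormDet724 :
    Measurable (fun g : G K =>
      Fermat.Agent.LT.T5.adNorm (Matrix.det (g : Matrix (Fin 2) (Fin 2) (Adl K)))) := by
  have : BorelSpace (G K) := borelSpaceG724
  have : Countable (HeightOneSpectrum (𝓞 K)) := countable_places724 K
  unfold Fermat.Agent.LT.T5.adNorm
  refine Measurable.mul ?_ ?_
  · refine Finset.measurable_prod _ fun w _ => ?_
    exact ((continuous_norm.comp ((continuous_inf724 w).comp continuous_det724)).measurable).pow_const _
  · refine measurable_finprod724 _ fun v => ?_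
    exact (continuous_norm.comp ((continuous_fin724 v).comp continuous_det724)).measurable

/-! ## The congruence condition -/

theorem measurableSet_cong724 (𝔪 : Ideal (𝓞 K)) (x : Fin 2 → K)
    (v : HeightOneSpectrum (𝓞 K)) :
    MeasurableSet {g : G K | ∃ t ∈ idealClosure 𝔪 v,
      (rowOf x g 0).2 v = t * (rowOf x g 1).2 v} := by
  have : BorelSpace (G K) := borelSpaceG724
  exact measurableSet_ratio724 (fun g : G K => (rowOf x g 0).2 v)
    (fun g : G K => (rowOf x g 1).2 v)
    ((continuous_fin724 v).comp (continuous_rowOf724 x 0))
    ((continuous_fin724 v).comp (continuous_rowOf724 x 1))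
    (idealClosure 𝔪 v) isClosed_closure

theorem measurableSet_mem_cntSet724 (𝔪 : Ideal (𝓞 K)) (Y : ℝ)
    (x : Projectivization K (Fin 2 → K)) :
    MeasurableSet {g : G K | x ∈ cntSet 𝔪 Y g} := by
  have : Countable (HeightOneSpectrum (𝓞 K)) := countable_places724 K
  have h : {g : G K | x ∈ cntSet 𝔪 Y g}
      = {g : G K | rowNorm (rowOf x.rep g) ^ 2 * Y
          ≤ Fermat.Agent.LT.T5.adNorm (Matrix.det (g : Matrix (Fin 2) (Fin 2) (Adl K)))}
        ∩ ⋂ v : HeightOneSpectrum (𝓞 K),
          {g : G K | v.asIdeal ∣ 𝔪 → ∃ t ∈ idealClosure 𝔪 v,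
            (rowOf x.rep g 0).2 v = t * (rowOf x.rep g 1).2 v} := by
    ext g
    simp only [cntSet, Set.mem_ofPred_eq, Set.mem_inter_iff, Set.mem_iInter]
  rw [h]
  refine MeasurableSet.inter ?_ (MeasurableSet.iInter fun v => ?_)
  · exact measurableSet_le (((measurable_rowNorm724 x.rep).pow_const 2).mul_const Y)
      measurable_adNormDet724
  · by_cases hv : v.asIdeal ∣ 𝔪
    · simp only [hv, forall_const]
      exact measurableSet_cong724 𝔪 x.rep v
    · simp only [hv, IsEmpty.forall_iff, Set.ofPred_true]
      exact MeasurableSet.univ

/-! ## The leaf -/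

/-- **Leaf T7.14.3a `CountMeasC`.** -/
theorem countMeasC724 : H671.CountMeasC K := by
  intro _ 𝔪 _ Y _
  have : Countable (Projectivization K (Fin 2 → K)) := countable_proj724 K
  exact measurable_natCard724 (fun x => {g : G K | x ∈ cntSet 𝔪 Y g})
    (fun x => measurableSet_mem_cntSet724 𝔪 Y x)

end Fermat.Agent.LT.T7.H724

end
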