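import Mathlib
import Fermat.Agent.LT.T7.H563.PTSpec

/-!
# Row LT, tower T7, leaf PT.3 `PT563.ConvAvgC563 K` (registry row 2801; SPARE, helper724)

OFF-MAIN.  ADDITIVE (new names only, all suffixed `724`, namespace
`Fermat.Agent.LT.T7.H724`).  No hole, nothing assumed.

    convAvgC724 (K) : PT563.ConvAvgC563 K            (VERBATIM, UNCONDITIONAL)

The proof is Mathlib only and uses NEITHER local compactness NOR second countability of
`GL₂(𝔸_K)` (so `T1.LocCompC` is not in the closure): the Fubini step is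
`integral_integral_swap_of_hasCompactSupport` (continuous functions with compact support, no
σ-finiteness), the continuity is `continuousOn_integral_of_compact_support`, the common support
is `C₁ * C₂`.  The abstract forms (`conv_avg_eq724`, `conv_jointCont724`, `conv_supp724`) hold
for every topological group with its Borel σ-algebra and every measure which is finite on
compact sets; they serve the calculus nodes of all forms (`ProdMtCb`, `ProdMtQC57`,
`ProdMtQC801`).
-/

set_option autoImplicit false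
set_option linter.unusedSectionVars false
set_option linter.style.haveILetI false

open MeasureTheory
open scoped Pointwise

noncomputable section

namespace Fermat.Agent.LT.T7.H724

section Abstract

variable {G : Type*} [Group G] [TopologicalSpace G] [IsTopologicalGroup G]
  [MeasurableSpace G] [BorelSpace G]
variable {Ω₁ : Type*} [TopologicalSpace Ω₁] [CompactSpace Ω₁] [T2Space Ω₁]
  [SecondCountableTopology Ω₁] [MeasurableSpace Ω₁] [BorelSpace Ω₁]
variable {Ω₂ : Type*} [TopologicalSpace Ω₂] [CompactSpace Ω₂] [T2Space Ω₂]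
  [SecondCountableTopology Ω₂] [MeasurableSpace Ω₂] [BorelSpace Ω₂]

/-- The integrand of the convolution of two members is jointly continuous in
`(y, (a, b))`. -/
theorem conv_integrand_cont724 (p : Ω₁ → G → ℂ) (q : Ω₂ → G → ℂ)
    (hp : Continuous (fun x : Ω₁ × G => p x.1 x.2))
    (hq : Continuous (fun x : Ω₂ × G => q x.1 x.2)) (h : G) :
    Continuous (Function.uncurry
      (fun (y : G) (x : Ω₁ × Ω₂) => p x.1 y * q x.2 (y⁻¹ * h))) := by
  have h1 : Continuous (fun z : G × (Ω₁ × Ω₂) => p z.2.1 z.1) :=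
    hp.comp ((continuous_snd.fst).prodMk continuous_fst)
  have h2 : Continuous (fun z : G × (Ω₁ × Ω₂) => q z.2.2 (z.1⁻¹ * h)) :=
    hq.comp ((continuous_snd.snd).prodMk
      ((continuous_fst.inv).mul continuous_const))
  exact h1.mul h2

/-- **CONV-AVG, abstract form (a)**: the convolution of two averages is the average over the
product space of the convolutions. -/
theorem conv_avg_eq724 (μ : Measure G) [IsFiniteMeasureOnCompacts μ]
    (ν₁ : Measure Ω₁) [IsFiniteMeasure ν₁] (ν₂ : Measure Ω₂) [IsFiniteMeasure ν₂]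
    (p : Ω₁ → G → ℂ) (q : Ω₂ → G → ℂ)
    (hp : Continuous (fun x : Ω₁ × G => p x.1 x.2))
    (hq : Continuous (fun x : Ω₂ × G => q x.1 x.2))
    (C : Set G) (hC : IsCompact C) (hpC : ∀ (a : Ω₁) (y : G), p a y ≠ 0 → y ∈ C) (h : G) :
    ∫ y, (∫ a, p a y ∂ν₁) * (∫ b, q b (y⁻¹ * h) ∂ν₂) ∂μ
      = ∫ x : Ω₁ × Ω₂, (∫ y, p x.1 y * q x.2 (y⁻¹ * h) ∂μ) ∂(ν₁.prod ν₂) := by
  have hswap := integral_integral_swap_of_hasCompactSupport
    (f := fun (y : G) (x : Ω₁ × Ω₂) => p x.1 y * q x.2 (y⁻¹ * h))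
    (conv_integrand_cont724 p q hp hq h)
    (HasCompactSupport.intro (K := C ×ˢ (Set.univ : Set (Ω₁ × Ω₂)))
      (hC.prod isCompact_univ) (by
        rintro ⟨y, x⟩ hyx
        have hy : y ∉ C := fun hy => hyx ⟨hy, Set.mem_univ _⟩
        have h0 : p x.1 y = 0 := by
          by_contra hne
          exact hy (hpC x.1 y hne)
        simp [Function.uncurry, h0]))
    (μ := μ) (ν := ν₁.prod ν₂)
  rw [← hswap]
  refine integral_congr_ae (Filter.Eventually.of_forall fun y => ?_)
  exact (integral_prod_mul (μ := ν₁) (ν := ν₂) (fun a => p a y)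
    (fun b => q b (y⁻¹ * h))).symm

/-- **CONV-AVG, abstract form (b)**: the convolutions of the members are jointly continuous. -/
theorem conv_jointCont724 (μ : Measure G) [IsFiniteMeasureOnCompacts μ]
    (p : Ω₁ → G → ℂ) (q : Ω₂ → G → ℂ)
    (hp : Continuous (fun x : Ω₁ × G => p x.1 x.2))
    (hq : Continuous (fun x : Ω₂ × G => q x.1 x.2))
    (C : Set G) (hC : IsCompact C) (hpC : ∀ (a : Ω₁) (y : G), p a y ≠ 0 → y ∈ C) :
    Continuous (fun x : (Ω₁ × Ω₂) × G => ∫ y, p x.1.1 y * q x.1.2 (y⁻¹ * x.2) ∂μ) := by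
  have hcont : Continuous (Function.uncurry
      (fun (x : (Ω₁ × Ω₂) × G) (y : G) => p x.1.1 y * q x.1.2 (y⁻¹ * x.2))) := by
    have h1 : Continuous (fun z : ((Ω₁ × Ω₂) × G) × G => p z.1.1.1 z.2) :=
      hp.comp ((continuous_fst.fst.fst).prodMk continuous_snd)
    have h2 : Continuous (fun z : ((Ω₁ × Ω₂) × G) × G => q z.1.1.2 (z.2⁻¹ * z.1.2)) :=
      hq.comp ((continuous_fst.fst.snd).prodMk
        ((continuous_snd.inv).mul continuous_fst.snd))
    exact h1.mul h2
  have := continuousOn_integral_of_compact_support (μ := μ)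
    (f := fun (x : (Ω₁ × Ω₂) × G) (y : G) => p x.1.1 y * q x.1.2 (y⁻¹ * x.2))
    (s := Set.univ) (k := C) hC hcont.continuousOn (by
      intro x y _ hy
      have h0 : p x.1.1 y = 0 := by
        by_contra hne
        exact hy (hpC x.1.1 y hne)
      simp [h0])
  exact continuousOn_univ.mp this

/-- **CONV-AVG, abstract form (c)**: the convolutions of the members are supported in
`C₁ * C₂`. -/
theorem conv_supp724 (μ : Measure G) (p q : G → ℂ) (C₁ C₂ : Set G)
    (hp : ∀ y : G, p y ≠ 0 → y ∈ C₁) (hq : ∀ y : G, q y ≠ 0 → y ∈ C₂) (h : G)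
    (hne : ∫ y, p y * q (y⁻¹ * h) ∂μ ≠ 0) : h ∈ C₁ * C₂ := by
  by_contra hh
  apply hne
  have : (fun y => p y * q (y⁻¹ * h)) = fun _ => (0 : ℂ) := by
    funext y
    by_contra hy
    have hpy : p y ≠ 0 := fun h0 => hy (by simp [h0])
    have hqy : q (y⁻¹ * h) ≠ 0 := fun h0 => hy (by simp [h0])
    exact hh ⟨y, hp y hpy, y⁻¹ * h, hq _ hqy, by simp⟩
  rw [this]
  simp

end Abstract

section Adelic

open Fermat.Agent.LT.H556 Fermat.Agent.LT.H556.A0 Fermat.Agent.LT.T7

attribute [local instance] Fermat.Agent.LT.T5.instMeasurableSpaceG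

/-- **LEAF PT.3 = CONV-AVG, CLOSED** (verbatim, unconditional; any number field). -/
theorem convAvgC724 (K : Type) [Field K] [NumberField K] : PT563.ConvAvgC563 K := by
  intro μ hμ Ω₁ _ _ _ _ _ _ ν₁ _ Ω₂ _ _ _ _ _ _ ν₂ _ p q hp hq hCp hCq
  haveI : BorelSpace (G K) := ⟨rfl⟩
  haveI := hμ
  obtain ⟨C₁, hC₁, hp₁⟩ := hCp
  obtain ⟨C₂, hC₂, hq₂⟩ := hCq
  refine ⟨fun h => ?_, ?_, C₁ * C₂, hC₁.mul hC₂, fun x h hne => ?_⟩
  · exact conv_avg_eq724 μ ν₁ ν₂ p q hp hq C₁ hC₁ hp₁ h
  · exact conv_jointCont724 μ p q hp hq C₁ hC₁ hp₁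
  · exact conv_supp724 μ (p x.1) (q x.2) C₁ C₂ (hp₁ x.1) (hq₂ x.2) h hne

end Adelic

end Fermat.Agent.LT.T7.H724

end
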