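import Mathlib
import Fermat.Agent.LT.T7.P51.ConvAvgSpec
import Fermat.Agent.LT.T7.H878.ConvPure
import Fermat.Agent.LT.T7.H872.ConvTest
import Fermat.Agent.LT.T7.H724.ConvAvg

/-!
# Row LT, tower T7, node T7.L2.1.H2b.G2.1 `P51.ConvFamC51 F` (cut of helper51; helper724)

OFF-MAIN.  ADDITIVE (new names only, all suffixed `724`, namespace
`Fermat.Agent.LT.T7.H724`).  No hole, nothing assumed.

    convFamC724 (F) : P51.ConvFamC51 F                       (VERBATIM, UNCONDITIONAL)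

Proof.  `c` = the constant of PT.1 (`H878.convPureC878`, closed leaf of helper878).  For a
parameter `p = (a, b)` and `S = T₁ a ∪ T₂ b`:
`pure305 (T₁ a) φ₁ Φ₁ = pure305 S (ext51 (T₁ a) φ₁) Φ₁` (`pure_ext724`: the unit component at a
place `v ∈ S ∖ T₁` is the condition `OutT305` at `v`), so PT.1 gives
`P₁ a ⋆ P₂ b = c · pure305 S (χ p) (Φ₁ * Φ₂)`.  The four conclusions follow from PT.3
(`convAvgC724`: Fubini, joint continuity, support `C₁ C₂`) and `H872.isTestFn_conv872`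
(helper872) for `c⁻¹ · (P₁ a ⋆ P₂ b)`.
-/

set_option autoImplicit false
set_option linter.unusedSectionVars false
set_option linter.style.haveILetI false

open AutomorphicForm IsDedekindDomain NumberField MeasureTheory

noncomputable section

namespace Fermat.Agent.LT.T7.H724

open Fermat.Agent.LT.H556 Fermat.Agent.LT.H556.A0 Fermat.Agent.LT.T7
open Fermat.Agent.LT.T7.H305 Fermat.Agent.LT.T7.H893

attribute [local instance] Fermat.Agent.LT.T5.instMeasurableSpaceG

section Local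

variable {F : Type} [Field F] [NumberField F]

/-- `U(0) = GL₂(𝒪_v)` for the component at `v` of an adelic element. -/
theorem inU_zero_fin724 (v : HeightOneSpectrum (𝓞 F)) (h : G F) :
    T6.InU 0 (finGL305 v h) ↔ IsIntegralAt v h ∧ IsIntegralAt v h⁻¹ := by
  rw [H159.inU_zero_iff159]
  have e : (finGL305 v h)⁻¹ = finGL305 v h⁻¹ := (map_inv (finGL305 v) h).symm
  constructor
  · rintro ⟨h1, h2⟩
    refine ⟨fun i j => h1 i j, fun i j => ?_⟩
    have := h2 i j
    rw [e] at this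
    exact this
  · rintro ⟨h1, h2⟩
    refine ⟨fun i j => h1 i j, fun i j => ?_⟩
    rw [e]
    exact h2 i j

open Classical in
/-- The unit of level `0` at a place `v`, on the components of an adelic element. -/
theorem unitFn_zero_fin724 (v : HeightOneSpectrum (𝓞 F)) (h : G F) :
    unitFn893 0 (finGL305 v h)
      = if IsIntegralAt v h ∧ IsIntegralAt v h⁻¹ then (1 : ℂ) else 0 := by
  classical
  unfold unitFn893
  by_cases hh : T6.InU 0 (finGL305 v h)
  · rw [if_pos hh, if_pos ((inU_zero_fin724 v h).1 hh)]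
  · rw [if_neg hh, if_neg (fun h' => hh ((inU_zero_fin724 v h).2 h'))]

/-- The unit of level `0` is regular. -/
theorem unitReg_zero724 (v : HeightOneSpectrum (𝓞 F)) :
    T6.IsBiInv (T6.InU 0) (unitFn893 (k := v.adicCompletion F) 0) ∧
      T6.HasFinSupp (T6.InU 0) (unitFn893 (k := v.adicCompletion F) 0) := by
  classical
  constructor
  · intro u u' g hu hu'
    have hu1 := (H159.inU_zero_iff159 v u).1 hu
    have hu2 := (H159.inU_zero_iff159 v u').1 hu'
    unfold unitFn893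
    have hiff : T6.InU 0 (u * g * u') ↔ T6.InU 0 g := by
      rw [H159.inU_zero_iff159, H159.inU_zero_iff159]
      constructor
      · intro h
        have h1 : u⁻¹ * (u * g * u') * u'⁻¹ ∈ H159.intGL159 F v :=
          mul_mem (mul_mem (inv_mem hu1) h) (inv_mem hu2)
        have e : u⁻¹ * (u * g * u') * u'⁻¹ = g := by group
        rwa [e] at h1
      · intro h
        exact mul_mem (mul_mem hu1 h) hu2
    by_cases hg : T6.InU 0 g
    · rw [if_pos hg, if_pos (hiff.2 hg)]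
    · rw [if_neg hg, if_neg (fun h' => hg (hiff.1 h'))]
  · refine ⟨{1}, fun g hg => ⟨1, Finset.mem_singleton_self 1, g, ?_, (one_mul g).symm⟩⟩
    unfold unitFn893 at hg
    by_contra hn
    exact hg (if_neg hn)

/-- **The pure tensor does not change when the set of places is enlarged and the components
are extended by the unit of level `0`.** -/
theorem pure_ext724 (T S : Finset (HeightOneSpectrum (𝓞 F))) (hTS : T ⊆ S)
    (f₀ : ∀ v : HeightOneSpectrum (𝓞 F), GL (Fin 2) (v.adicCompletion F) → ℂ)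
    (Φ : InfinitePlace F → GL (Fin 2) ℂ → ℂ) (h : G F) :
    pure305 T f₀ Φ h = pure305 S (P51.ext51 T f₀) Φ h := by
  classical
  unfold pure305
  by_cases hT : OutT305 T h
  · have hS : OutT305 S h := fun v hv => hT v (fun hv' => hv (hTS hv'))
    rw [if_pos hT, if_pos hS]
    congr 1
    have hsplit : ∏ v ∈ S, P51.ext51 T f₀ v (finGL305 v h)
        = ∏ v ∈ S, if v ∈ T then f₀ v (finGL305 v h) else 1 := by
      refine Finset.prod_congr rfl fun v _ => ?_
      unfold P51.ext51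
      by_cases hv : v ∈ T
      · rw [if_pos hv, if_pos hv]
      · rw [if_neg hv, if_neg hv, unitFn_zero_fin724, if_pos (hT v hv)]
    rw [hsplit, Finset.prod_ite_mem, Finset.inter_eq_right.2 hTS]
  · rw [if_neg hT]
    by_cases hS : OutT305 S h
    · rw [if_pos hS]
      unfold OutT305 at hT
      rw [not_forall] at hT
      obtain ⟨v, hv⟩ := hT
      rw [Classical.not_imp] at hv
      obtain ⟨hvT, hvn⟩ := hv
      have hvS : v ∈ S := by
        by_contra hvS
        exact hvn (hS v hvS)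
      have h0 : P51.ext51 T f₀ v (finGL305 v h) = 0 := by
        unfold P51.ext51
        rw [if_neg hvT, unitFn_zero_fin724, if_neg hvn]
      rw [Finset.prod_eq_zero hvS h0, zero_mul]
    · rw [if_neg hS]

/-- A scalar multiple of a test function is a test function. -/
theorem isTestFn_smul724 {𝔫 : Ideal (𝓞 F)} {τ : G F → ℂ} {φ : G F → ℂ} (c : ℂ)
    (hφ : T5.IsTestFn 𝔫 τ φ) : T5.IsTestFn 𝔫 τ (fun h => c * φ h) where
  ktype := hφ.ktype
  cont := continuous_const.mul hφ.cont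
  supp := by
    have := hφ.supp.mul_left (f := fun _ : G F => c)
    exact this
  smooth := by
    intro n h h1 h2 g
    exact contDiff_const.mul (hφ.smooth n h h1 h2 g)
  inv :=
    { level_right := fun u hu g => by
        show c * φ (g * u) = c * φ g
        rw [hφ.inv.level_right u hu g]
      level_left := fun u hu g => by
        show c * φ (u * g) = c * φ g
        rw [hφ.inv.level_left u hu g]
      arch_right := fun w k hk g => by
        show c * φ (g * k) = (τ k)⁻¹ * (c * φ g)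
        rw [hφ.inv.arch_right w k hk g]
        ring
      arch_left := fun w k hk g => by
        show c * φ (k * g) = (τ k)⁻¹ * (c * φ g)
        rw [hφ.inv.arch_left w k hk g]
        ring }

end Local

section Main

variable (F : Type) [Field F] [NumberField F]

/-- **NODE P.G2.1 = CONV-FAM, CLOSED** (verbatim, unconditional). -/
theorem convFamC724 : P51.ConvFamC51 F := by
  classical
  intro hTC μ hμ μc hμc T₀ lv hlv 𝔫 h𝔫
  obtain ⟨c, hc, hPT⟩ := H878.convPureC878 F hTC μ hμ μc hμc T₀ lv hlv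
  have hcC : (c : ℂ) ≠ 0 := by exact_mod_cast hc.ne'
  refine ⟨⟨c, hc.le⟩, fun h0 => hc.ne' (congrArg NNReal.toReal h0), ?_⟩
  intro Ω₁ _ _ _ _ _ _ ν₁ _ Ω₂ _ _ _ _ _ _ ν₂ _ T₁ φ₁ Φ₁ T₂ φ₂ Φ₂ χ hF₁ hF₂ hχ
  -- regularity of the extended components
  have hreg : ∀ (T : Finset (HeightOneSpectrum (𝓞 F)))
      (φ : ∀ w : HeightOneSpectrum (𝓞 F), GL (Fin 2) (w.adicCompletion F) → ℂ),
      T₀ ⊆ T →
      (∀ w ∈ T, T6.IsBiInv (T6.InU (lv w)) (φ w) ∧ T6.HasFinSupp (T6.InU (lv w)) (φ w)) →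
      ∀ w : HeightOneSpectrum (𝓞 F),
        T6.IsBiInv (T6.InU (lv w)) (P51.ext51 T φ w) ∧
          T6.HasFinSupp (T6.InU (lv w)) (P51.ext51 T φ w) := by
    intro T φ hT hφ w
    unfold P51.ext51
    by_cases hw : w ∈ T
    · rw [if_pos hw]
      exact hφ w hw
    · rw [if_neg hw, hlv w (fun h' => hw (hT h'))]
      exact unitReg_zero724 w
  -- the key identity for pure tensors
  have key : ∀ (p : Ω₁ × Ω₂) (h : G F),
      T5.conv μ (pure305 (T₁ p.1) (φ₁ p.1) (Φ₁ p.1)) (pure305 (T₂ p.2) (φ₂ p.2) (Φ₂ p.2)) h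
        = (c : ℂ) * pure305 (T₁ p.1 ∪ T₂ p.2) (χ p)
            (fun w => @T6.convInt _ _ (borel _) μc (Φ₁ p.1 w) (Φ₂ p.2 w)) h := by
    intro p h
    have e1 : pure305 (T₁ p.1) (φ₁ p.1) (Φ₁ p.1)
        = pure305 (T₁ p.1 ∪ T₂ p.2) (P51.ext51 (T₁ p.1) (φ₁ p.1)) (Φ₁ p.1) :=
      funext fun x => pure_ext724 _ _ Finset.subset_union_left _ _ x
    have e2 : pure305 (T₂ p.2) (φ₂ p.2) (Φ₂ p.2)
        = pure305 (T₁ p.1 ∪ T₂ p.2) (P51.ext51 (T₂ p.2) (φ₂ p.2)) (Φ₂ p.2) :=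
      funext fun x => pure_ext724 _ _ Finset.subset_union_right _ _ x
    rw [e1, e2]
    exact hPT (T₁ p.1 ∪ T₂ p.2) ((hF₁.sub p.1).trans Finset.subset_union_left)
      (P51.ext51 (T₁ p.1) (φ₁ p.1)) (P51.ext51 (T₂ p.2) (φ₂ p.2)) (χ p) (Φ₁ p.1) (Φ₂ p.2)
      (fun v _ => hreg (T₁ p.1) (φ₁ p.1) (hF₁.sub p.1) (hF₁.reg p.1) v)
      (fun v _ => hreg (T₂ p.2) (φ₂ p.2) (hF₂.sub p.2) (hF₂.reg p.2) v)
      (hχ p) (hF₁.arch p.1) (hF₂.arch p.2) h
  have key' : ∀ (p : Ω₁ × Ω₂) (h : G F),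
      pure305 (T₁ p.1 ∪ T₂ p.2) (χ p)
          (fun w => @T6.convInt _ _ (borel _) μc (Φ₁ p.1 w) (Φ₂ p.2 w)) h
        = (c : ℂ)⁻¹ * T5.conv μ (pure305 (T₁ p.1) (φ₁ p.1) (Φ₁ p.1))
            (pure305 (T₂ p.2) (φ₂ p.2) (Φ₂ p.2)) h := by
    intro p h
    rw [key p h, ← mul_assoc, inv_mul_cancel₀ hcC, one_mul]
  -- PT.3
  obtain ⟨hfub, hcont, C, hC, hsupp⟩ := convAvgC724 F μ hμ
    Ω₁ inferInstance inferInstance inferInstance inferInstance inferInstance inferInstance ν₁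
    inferInstance
    Ω₂ inferInstance inferInstance inferInstance inferInstance inferInstance inferInstance ν₂
    inferInstance
    (fun a => pure305 (T₁ a) (φ₁ a) (Φ₁ a)) (fun b => pure305 (T₂ b) (φ₂ b) (Φ₂ b))
    hF₁.cont hF₂.cont hF₁.supp hF₂.supp
  refine ⟨fun p => ?_, ?_, ⟨C, hC, fun p h hne => ?_⟩, fun h => ?_⟩
  · have h1 := H872.isTestFn_conv872 hμ h𝔫 (hF₁.test p.1) (hF₂.test p.2)
    have h2 := isTestFn_smul724 (c : ℂ)⁻¹ h1
    have e : (fun h => (c : ℂ)⁻¹ * T5.conv μ (pure305 (T₁ p.1) (φ₁ p.1) (Φ₁ p.1))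
        (pure305 (T₂ p.2) (φ₂ p.2) (Φ₂ p.2)) h)
        = pure305 (T₁ p.1 ∪ T₂ p.2) (χ p)
          (fun w => @T6.convInt _ _ (borel _) μc (Φ₁ p.1 w) (Φ₂ p.2 w)) :=
      funext fun h => (key' p h).symm
    rw [e] at h2
    exact h2
  · have e : (fun q : (Ω₁ × Ω₂) × G F =>
        pure305 (T₁ q.1.1 ∪ T₂ q.1.2) (χ q.1)
          (fun w => @T6.convInt _ _ (borel _) μc (Φ₁ q.1.1 w) (Φ₂ q.1.2 w)) q.2)
        = fun q : (Ω₁ × Ω₂) × G F => (c : ℂ)⁻¹ *
            T5.conv μ (pure305 (T₁ q.1.1) (φ₁ q.1.1) (Φ₁ q.1.1))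
              (pure305 (T₂ q.1.2) (φ₂ q.1.2) (Φ₂ q.1.2)) q.2 :=
      funext fun q => key' q.1 q.2
    rw [e]
    exact continuous_const.mul hcont
  · refine hsupp p h (fun h0 => hne ?_)
    rw [key' p h, h0, mul_zero]
  · rw [hfub h]
    have e : (fun p : Ω₁ × Ω₂ => T5.conv μ (pure305 (T₁ p.1) (φ₁ p.1) (Φ₁ p.1))
        (pure305 (T₂ p.2) (φ₂ p.2) (Φ₂ p.2)) h)
        = fun p : Ω₁ × Ω₂ => (c : ℂ) * pure305 (T₁ p.1 ∪ T₂ p.2) (χ p)
            (fun w => @T6.convInt _ _ (borel _) μc (Φ₁ p.1 w) (Φ₂ p.2 w)) h :=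
      funext fun p => key p h
    rw [e, integral_const_mul]
    have e2 := integral_smul_nnreal_measure (μ := ν₁.prod ν₂)
      (fun p : Ω₁ × Ω₂ => pure305 (T₁ p.1 ∪ T₂ p.2) (χ p)
        (fun w => @T6.convInt _ _ (borel _) μc (Φ₁ p.1 w) (Φ₂ p.2 w)) h) ⟨c, hc.le⟩
    have e3 : ∀ z : ℂ, (⟨c, hc.le⟩ : NNReal) • z = (c : ℂ) * z := fun z => by
      show ((⟨c, hc.le⟩ : NNReal) : ℝ) • z = _
      rw [Complex.real_smul]
    rw [e2]
    exact (e3 _).symm

end Main

end Fermat.Agent.LT.T7.H724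

end
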