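import Mathlib
import Fermat.Agent.LT.T7.H893.SupplyProdSpec
import Fermat.Agent.LT.T7.P51.ProdMtSpec

/-!
# Row LT, tower T7, node T7.L2.1.H2b.4 `H893.ProdShapeC893` (registry row 2851, helper724):
# CUT -- Spec

OFF-MAIN.  Definitions and frozen Props only (the proved tops are `ProdShapeTop.lean`).  No
hole, nothing assumed.  ADDITIVE (new names only, all suffixed `724`, namespace
`Fermat.Agent.LT.T7.PS724`).  The node of the sixth cut of helper893 (`SupplyProdSpec.lean`
21691ff1) is cut ON THE VOCABULARY OF THE SPARE CUT OF helper51 (`T7/P51/ProdMtSpec.lean`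
4b4a6c6c, audited by helper416 and helper950), so that the two routes to `H893.ProdMtCb` share
the global calculus and the leaves at the places of the level; cubic twin of the sub-cut of
helper563 over `ℚ` (`T7/H563/ProdShapeQSpec.lean` 110115a8).

    prodShapeC_of724 : P51.GlobProdC51 K K' → LocProdC724 K K' → H893.ProdShapeC893 K K'
    locProdC_of724   : P51.RegOrbC51 → P51.RegArchC51 → P51.SplitOrbC51 → P51.ArchProdC51
                         → SphProdC724 → LocProdC724 K K'

## The cut

* `P51.GlobProdC51` (NODE of helper51, global: `OpAvgC51` + `ConvAvgC51`): the members are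
  averages of pure tensors of shape `P51.LocProd51 … t` with the constant `a c / t`.
* **`LocProdC724`** (NODE, local): there is `t ≠ 0` such that the shape `P51.LocProd51 … t`
  implies `H893.LocP893`: the local hypotheses `LocHyp893` AT THE PLACES OF THE LEVEL (and at
  infinity) and the spherical shape `SphOut893` outside the level.  Leaves: `P51.RegOrbC51`,
  `P51.SplitOrbC51` (the place `u`; gives `t`), `P51.RegArchC51`, `P51.ArchProdC51` (infinity),
  and
* **`SphProdC724`** (LEAF, local, Satake): `SphOut893` for the components of the products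
  outside the level.  The clauses at the bad places are those of the partner (first clause of
  `LocB893b`; proved in the top); the inert clause at `u` is void.

The leaves `P51.RegSphC51`, `P51.InertSphC51`, `P51.SplitSphC51` of the route of helper51 are NOT
used: outside the level the route of the sixth cut goes through `H893.SphHypC893` (closed).

FALSITY CHECKS (helper724).  (a) Constants: `a * c / t = a * (c / t)`, `c₀ = c / t` depends on
the context only (`c` from `GlobProdC51`, `t` from `SplitOrbC51`).  (b) `SphProdC724`: at
`v ∈ T ∖ T₀`, `T = T₁ ∪ T₂`, the factors are spherical with the Satake relations of `SphOut893`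
on `T₁`, resp. `T₂` (clauses of `LocA893`, `LocB893b`), or the unit `1_{GL₂(𝒪)}` (spherical,
Satake transform `1`, `T6.IsBC` of the units); the convolution product (`vol GL₂(𝒪) = 1`) of
spherical functions is spherical, its Satake transform is the product of the Satake transforms
(upstairs for the residue field of `w`), `T6.IsBC ℓ q` and the product formula of the split
clause are multiplicative.  `v` is unramified (`RamIn`), so it is inert or splits completely.
(c) `(B.comp 𝔫).l = B.l` by definition.
-/

set_option autoImplicit false

open AutomorphicForm IsDedekindDomain NumberField MeasureTheory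
open scoped ComplexConjugate

noncomputable section

namespace Fermat.Agent.LT.T7.PS724

open Fermat.Agent.LT.H556 Fermat.Agent.LT.H556.A0 Fermat.Agent.LT.T7
open Fermat.Agent.LT.T7.H305 Fermat.Agent.LT.T7.H893

attribute [local instance] Fermat.Agent.LT.T5.instMeasurableSpaceG

section Nodes

variable (K K' : Type) [Field K] [NumberField K] [Field K'] [NumberField K'] [Algebra K K']

/-- **LEAF T7.L2.1.H2b.4.L = SPH-PROD (local, Satake).**  At the places of `T` outside the level
the components of the products are spherical and matched in the Satake form: `SphOut893` for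
the shape `P51.LocProd51`.  See the header, falsity check (b). -/
def SphProdC724 : Prop :=
  ∀ ℓ Φ B g 𝔫 μc T₀ n n₀ m H' z' H z t k j T φ₀ Φ' f₀ F,
    P51.IsLoc51 K K' ℓ Φ B g 𝔫 μc T₀ n n₀ m H' z' H z t k j T φ₀ Φ' f₀ F →
    SphOut893 B.l T₀ T φ₀ f₀

/-- **NODE T7.L2.1.H2b.4.N = LOC-PROD for the sixth cut (local).**  In the context there is
`t ≠ 0` such that the shape `P51.LocProd51 … t k j` implies `H893.LocP893`: the local
hypotheses at the places of the level and at infinity, the spherical shape outside. -/
def LocProdC724 : Prop :=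
  ∀ (ℓ : ℕ) (Φ : HeckeEigensystem K' ℂ) (B : L2Base K K') (g : G K') (𝔫 : Ideal (𝓞 K))
    (μc : @Measure (GL (Fin 2) ℂ) (borel _)) (T₀ : Finset (HeightOneSpectrum (𝓞 K)))
    (n n₀ : HeightOneSpectrum (𝓞 K') → ℕ) (m : HeightOneSpectrum (𝓞 K) → ℕ),
    P51.IsCtx51 ℓ Φ B g 𝔫 μc T₀ n n₀ m →
    ∃ t : ℂ, t ≠ 0 ∧
      ∀ (H' : Finset (G K')) (z' : G K') (H : Finset (G K)) (z : G K),
        P51.IsSys51 B 𝔫 H' z' H z →
        ∀ (k : ℤ) (j : ℕ) (T : Finset (HeightOneSpectrum (𝓞 K)))
          (φ₀ : ∀ w : HeightOneSpectrum (𝓞 K'), GL (Fin 2) (w.adicCompletion K') → ℂ)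
          (Φ' : InfinitePlace K' → GL (Fin 2) ℂ → ℂ)
          (f₀ : ∀ v : HeightOneSpectrum (𝓞 K), GL (Fin 2) (v.adicCompletion K) → ℂ)
          (F : InfinitePlace K → GL (Fin 2) ℂ → ℂ),
          P51.LocProd51 B g 𝔫 μc T₀ n n₀ m H' z' H z t k j T φ₀ Φ' f₀ F →
          LocP893 (B.comp 𝔫) μc T₀ n m T φ₀ Φ' f₀ F

end Nodes

/-! ## Appendix: the equation lemmas of the definitions of this file are realised HERE -/

theorem eqns_realised_prodShape724 : True := by
  have _h0 := @SphProdC724.eq_1
  have _h1 := @LocProdC724.eq_1
  have _g0 := @SphProdC724.eq_def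
  have _g1 := @LocProdC724.eq_def
  have _u0 := @SphProdC724.eq_unfold
  have _u1 := @LocProdC724.eq_unfold
  trivial

end Fermat.Agent.LT.T7.PS724

end
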