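import Mathlib
import Fermat.Agent.LT.T7.H724.ProdShapeSpec
import Fermat.Agent.LT.T7.P51.ProdMtTop
import Fermat.Agent.LT.T7.P51.GlobProdSpec

/-!
# Row LT, tower T7, node T7.L2.1.H2b.4 `H893.ProdShapeC893` (registry row 2851, helper724):
# the PROVED tops of the cut

OFF-MAIN.  No hole, nothing assumed.  ADDITIVE.

    locProdC_of724   : P51.RegOrbC51 → P51.RegArchC51 → P51.SplitOrbC51 → P51.ArchProdC51
                         → SphProdC724 → LocProdC724 K K'
    prodShapeC_of724 : P51.GlobProdC51 K K' → LocProdC724 K K' → H893.ProdShapeC893 K K'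
    prodShapeC_of_leaves724 : P51.OpAvgC51 → P51.ConvAvgC51 → P51.RegOrbC51 → P51.RegArchC51
                         → P51.SplitOrbC51 → P51.ArchProdC51 → SphProdC724
                         → H893.ProdShapeC893 K K'                               (VERBATIM)
-/

set_option autoImplicit false

open AutomorphicForm IsDedekindDomain NumberField MeasureTheory
open scoped ComplexConjugate

noncomputable section

namespace Fermat.Agent.LT.T7.PS724

open Fermat.Agent.LT.H556 Fermat.Agent.LT.H556.A0 Fermat.Agent.LT.T7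
open Fermat.Agent.LT.T7.H305 Fermat.Agent.LT.T7.H893 Fermat.Agent.LT.T7.P51

attribute [local instance] Fermat.Agent.LT.T5.instMeasurableSpaceG

section Tops

variable {K K' : Type} [Field K] [NumberField K] [Field K'] [NumberField K'] [Algebra K K']

/-- **THE LOCAL NODE of the sixth cut from its leaves.** -/
theorem locProdC_of724 (h1 : RegOrbC51 K K') (h3 : RegArchC51 K K') (h5 : SplitOrbC51 K K')
    (h7 : ArchProdC51 K K') (h8 : SphProdC724 K K') : LocProdC724 K K' := by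
  classical
  intro ℓ Φ B g 𝔫 μc T₀ n n₀ m hctx
  obtain ⟨t, ht, hsplit⟩ := h5 ℓ Φ B g 𝔫 μc T₀ n n₀ m hctx
  refine ⟨t, ht, ?_⟩
  intro H' z' H z hsys k j T φ₀ Φ' f₀ F hLP
  have hloc : IsLoc51 K K' ℓ Φ B g 𝔫 μc T₀ n n₀ m H' z' H z t k j T φ₀ Φ' f₀ F :=
    ⟨hctx, hsys, ht, hLP⟩
  have hsphOut : SphOut893 B.l T₀ T φ₀ f₀ :=
    h8 _ _ _ _ _ _ _ _ _ _ _ _ _ _ _ _ _ _ _ _ _ _ hloc
  obtain ⟨T₁, T₂, φ₁, Φ₁, f₁, F₁, φ₂, Φ₂, f₂, F₂, hT, hT₁, hT₂, hA, hB, hbad, hfu, hφ0, hφi,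
    hsph, hΦ, hF⟩ := hLP
  have hBh := hB.1
  -- the two kinds of places of the level
  have hcase : ∀ v ∈ T₀, v = B.u ∨ (v ∈ T₀.erase B.u ∧ v ≠ B.u) := by
    intro v hv0
    by_cases hvu : v = B.u
    · exact Or.inl hvu
    · exact Or.inr ⟨Finset.mem_erase.2 ⟨hvu, hv0⟩, hvu⟩
  have hreg : ∀ v ∈ T₀, RegAt51 n m φ₀ f₀ v := by
    intro v hv0
    rcases hcase v hv0 with hvu | ⟨hve, hvu⟩
    · subst hvu
      exact h1 _ _ _ _ _ _ _ _ _ _ _ _ _ _ _ _ _ _ _ _ _ _ hloc
    · refine ⟨fun w hw => ?_, ?_⟩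
      · rw [(hbad v hv0 hvu).2 w hw]
        exact hBh.inv_up v hve w hw
      · rw [(hbad v hv0 hvu).1]
        exact hBh.inv_down v hve
  have harch := h3 _ _ _ _ _ _ _ _ _ _ _ _ _ _ _ _ _ _ _ _ _ _ hloc
  have hinert : ∀ v ∈ T₀, InertAt51 (B.comp 𝔫) n m φ₀ f₀ v := by
    intro v hv0
    rcases hcase v hv0 with hvu | ⟨hve, hvu⟩
    · subst hvu
      intro w _ huniq
      exfalso
      have e0 := huniq (B.o 0) (hctx.base.orbit_over 0)
      have e1 := huniq (B.o 1) (hctx.base.orbit_over 1)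
      exact hctx.base.orbit_ne 1 Nat.zero_lt_one hctx.cyc.prime.one_lt (e1.trans e0.symm)
    · intro w hw huniq e i sw hi hs hext
      have := hBh.inert v hve w hw huniq e i sw hi hs hext
      rw [(hbad v hv0 hvu).2 w hw, (hbad v hv0 hvu).1]
      exact this
  have hsplitAll : ∀ v ∈ T₀, SplitAt51 (B.comp 𝔫) n m φ₀ f₀ v := by
    intro v hv0
    rcases hcase v hv0 with hvu | ⟨hve, hvu⟩
    · subst hvu
      exact hsplit H' z' H z k j T φ₀ Φ' f₀ F hloc
    · intro hex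
      obtain ⟨w, i, a1, a2, a3, a4, a5, a6, a7⟩ := hBh.split v hve hex
      refine ⟨w, i, a1, a2, a3, a4, a5, a6, ?_⟩
      have e : (fun (j : ℕ) (x : GL (Fin 2) (v.adicCompletion K)) => φ₀ (w j)
            (Matrix.GeneralLinearGroup.map ((i j : v.adicCompletion K ≃+* _) :
              v.adicCompletion K →+* (w j).adicCompletion K') x))
          = fun (j : ℕ) (x : GL (Fin 2) (v.adicCompletion K)) =>
            (fun w : HeightOneSpectrum (𝓞 K') => dblFn893 (n₀ w) (finGL305 w g)) (w j)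
              (Matrix.GeneralLinearGroup.map ((i j : v.adicCompletion K ≃+* _) :
                v.adicCompletion K →+* (w j).adicCompletion K') x) := by
        funext j x
        rw [(hbad v hv0 hvu).2 (w j) (a1 j)]
      rw [e, (hbad v hv0 hvu).1]
      exact a7
  refine ⟨?_, hsphOut⟩
  exact
    { inv_up := fun v hv w hw => (hreg v hv).1 w hw
      inv_down := fun v hv => (hreg v hv).2
      arch_up := harch.1
      arch_down := harch.2
      inert := fun v hv => hinert v hv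
      split := fun v hv => hsplitAll v hv
      arch := h7 _ _ _ _ _ _ _ _ _ _ _ _ _ _ _ _ _ _ _ _ _ _ hloc }

/-- **THE NODE `H893.ProdShapeC893` from the global node of helper51 and the local node.** -/
theorem prodShapeC_of724 (hG : GlobProdC51 K K') (hL : LocProdC724 K K') :
    ProdShapeC893 K K' := by
  intro ℓ hcyc hl2 htc Φ B hB hRam g hg 𝔫 μc hμc T₀ n n₀ m hT₀ hm hn hn₀
  have hctx : IsCtx51 ℓ Φ B g 𝔫 μc T₀ n n₀ m :=
    { cyc := hcyc, ne2 := hl2, tc := htc, base := hB, ram := hRam, bad := hg, haar := hμc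
      mem_T₀ := hT₀, lev_m := hm, lev_n := hn, lev_n₀ := hn₀ }
  obtain ⟨t, ht, hLt⟩ := hL ℓ Φ B g 𝔫 μc T₀ n n₀ m hctx
  obtain ⟨c, hc, hGc⟩ := hG ℓ Φ B g 𝔫 μc T₀ n n₀ m hctx
  refine ⟨c / t, div_ne_zero hc ht, ?_⟩
  intro a ha E hE hOp hA1 hA2 X k j hX
  have hsys : IsSys51 B 𝔫 E.H' E.z' E.H E.z :=
    { level_ne := hE ▸ hOp.level_ne
      level_g := hE ▸ hOp.level_g
      mem_S'_g := hE ▸ hOp.mem_S'_g
      u_level := hE ▸ hOp.u_level
      sys' := hOp.sys'
      unif' := hOp.unif'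
      sys := hOp.sys
      unif := hOp.unif }
  have hprod := hGc t a ht ha E hE hOp hA1 hA2 X k j hX
  rw [mul_div_assoc] at hprod
  exact isAvgPure_mono51
    (fun T φ₀ Φ' f₀ F h => hLt E.H' E.z' E.H E.z hsys k j T φ₀ Φ' f₀ F h) hprod

/-- **THE NODE `H893.ProdShapeC893` from the leaves.** -/
theorem prodShapeC_of_leaves724 (g1 : OpAvgC51 K K') (g2 : ConvAvgC51 K K')
    (h1 : RegOrbC51 K K') (h3 : RegArchC51 K K') (h5 : SplitOrbC51 K K')
    (h7 : ArchProdC51 K K') (h8 : SphProdC724 K K') : ProdShapeC893 K K' :=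
  prodShapeC_of724 (globProdC_of51 g1 g2) (locProdC_of724 h1 h3 h5 h7 h8)

end Tops

end Fermat.Agent.LT.T7.PS724

end
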